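import Fermat.Agent.RT.Lift59.Statements
import Fermat.Agent.RT.Assembly.Residual
import Fermat.Agent.RT.Patch.Residual
import Fermat.Agent.EC.Multiplicative.Int

/-!
# The residual representation of a semistable model over a finite field
-/

set_option autoImplicit false
set_option linter.style.haveILetI false
set_option linter.unusedSectionVars false

noncomputable section

open WeierstrassCurve WeierstrassCurve.Affine WeierstrassCurve.Affine.Point Polynomial
open scoped WeierstrassCurve.Affine TensorProduct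

namespace Fermat.Agent.RT.Lift59

open Fermat.Agent.Deform Fermat.Agent.Arith Module

local notation "Q̄" => AlgebraicClosure ℚ
local notation "GQ" => AlgebraicClosure ℚ ≃ₐ[ℚ] AlgebraicClosure ℚ

variable (W : WeierstrassCurve ℤ) (p : ℕ) [Fact p.Prime] (hΔ : W.Δ ≠ 0) (k : Type) [Field k]
  [Algebra (ZMod p) k]

/-- The representation on the `p`-torsion, over `k`. -/
def wRho : ResidualGaloisRep k :=
  (EC.Rep.residualRep W p hΔ).baseChange k

/-- The residual system of the model. -/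
def wAbar (ℓ : ℕ) : k :=
  (W.apOfModel ℓ : k)

variable {W p hΔ k}

theorem charpoly_wRho (σ : GQ) : LinearMap.charpoly ((wRho W p hΔ k).ρ σ) =
    (LinearMap.charpoly ((EC.Rep.residualRep W p hΔ).ρ σ)).map (algebraMap (ZMod p) k) :=
  LinearMap.charpoly_baseChange _ k

theorem charpoly_wRho_frobenius {ℓ : ℕ} (hℓ : ℓ.Prime) (hgood : W.IsGoodPrimeFor ℓ) (hne : ℓ ≠ p)
    {A : ValuationSubring Q̄} (hA : A.LiesOverPrime ℓ) {σ : GQ} (hσ : A.IsFrobeniusAt σ ℓ) :
    LinearMap.charpoly ((wRho W p hΔ k).ρ σ) = X ^ 2 - C (wAbar W k ℓ) * X + C (ℓ : k) := by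
  rw [charpoly_wRho, EC.Rep.charpoly_residualRep_frobenius _ hℓ hgood hne hA hσ]
  simp [wAbar]

theorem det_wRho {σ : GQ} {a : ℕ} (ha : ∀ μ : Q̄, μ ^ p = 1 → σ μ = μ ^ a) :
    LinearMap.det ((wRho W p hΔ k).ρ σ) = (a : k) := by
  have hn := EC.FrobTrace.card_rootsOfUnity_Qbar p
  refine (LinearMap.det_baseChange (A := k) _).trans ?_
  rw [EC.Rep.det_residualRep _ hn, Arith.modularCyclotomicCharacter_eq_natCast hn ha, map_natCast]

theorem isAbsolutelyIrreducible_wRho (hp2 : p ≠ 2) (hirr : W.ModRepIsIrreducible p) :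
    (wRho W p hΔ k).IsAbsolutelyIrreducible :=
  Assembly.isAbsolutelyIrreducible_baseChange _ fun K =>
    EC.Rep.baseChange_residualRep_isIrreducible _ hp2 hirr K

theorem wRho_eq_one_iff (σ : GQ) :
    (wRho W p hΔ k).ρ σ = 1 ↔ (EC.Rep.residualRep W p hΔ).ρ σ = 1 := by
  refine ⟨fun h => LinearMap.ext fun x => ?_, fun h => ?_⟩
  · exact Module.FaithfullyFlat.tensorProduct_mk_injective (A := ZMod p) (B := k) _
      (LinearMap.congr_fun h ((1 : k) ⊗ₜ[ZMod p] x))
  · show LinearMap.baseChange k _ = 1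
    rw [h, LinearMap.baseChange_one]
    rfl

/-- At a small prime `q ≠ p` the representation is unramified. -/
theorem isUnramifiedAt_wRho_of_smallAt (hp2 : p ≠ 2) (hW : W.IsSemistableModel) {q : ℕ}
    (hq : q.Prime) (hqp : q ≠ p) (h : SmallAt W p q) : (wRho W p hΔ k).IsUnramifiedAt q := by
  intro A hA σ hσ
  rw [wRho_eq_one_iff]
  by_cases hqΔ : (q : ℤ) ∣ W.Δ
  · exact LinearMap.ext fun x => EC.Multiplicative.galoisRepUnramifiedAt_of_multiplicative hq hΔ
      hqΔ (hW q hq hqΔ) ((Fact.out : p.Prime).odd_of_ne_two hp2)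
      (fun hd => hqp ((Nat.prime_dvd_prime_iff_eq hq Fact.out).1 hd)) h A hA σ hσ x
  · exact EC.Rep.isUnramifiedAt_residualRep hΔ hq hqΔ hqp A hA σ hσ

/-- At a prime `q ≠ p` which is not small inertia moves the `p`-torsion. -/
theorem exists_wRho_inertia_ne_one (hp2 : p ≠ 2) (hW : W.IsSemistableModel) {q : ℕ} (hq : q.Prime)
    (hqp : q ≠ p) (h : ¬ SmallAt W p q) {A : ValuationSubring Q̄} (hA : A.LiesOverPrime q) :
    ∃ σ ∈ A.inertiaSubgroupIn ℚ, (wRho W p hΔ k).ρ σ ≠ 1 := by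
  have hqΔ : (q : ℤ) ∣ W.Δ := by
    by_contra hd
    exact h (by rw [SmallAt, padicValInt.eq_zero_of_not_dvd hd]; exact dvd_zero p)
  obtain ⟨σ, hσ, Q, hQ, hmove⟩ := Assembly.exists_inertia_moves_torsion hA hq hΔ hqΔ
    (hW q hq hqΔ) Fact.out ((Fact.out : p.Prime).odd_of_ne_two hp2) hqp h
  refine ⟨σ, hσ, fun h1 => hmove ?_⟩
  rw [wRho_eq_one_iff] at h1
  exact congrArg Subtype.val (LinearMap.congr_fun h1
    ⟨Q, by rw [Submodule.mem_torsionBy_iff, natCast_zsmul]; exact hQ⟩)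

theorem charpoly_wRho_inertia (hW : W.IsSemistableModel) {q : ℕ} (hq : q.Prime) (hqp : q ≠ p)
    {A : ValuationSubring Q̄} (hA : A.LiesOverPrime q) {σ : GQ} (hσ : σ ∈ A.inertiaSubgroupIn ℚ) :
    LinearMap.charpoly ((wRho W p hΔ k).ρ σ) = (X - C 1) ^ 2 := by
  have h := EC.Rep.isUnipotentOnInertiaAt_residualRep hΔ hq hqp
    (EC.Rep.semistable_not_dvd hW q hq) A hA σ hσ
  rw [charpoly_wRho]
  exact (congrArg (Polynomial.map _) h).trans (by simp)

theorem trace_wRho_inertia (hW : W.IsSemistableModel) {q : ℕ} (hq : q.Prime) (hqp : q ≠ p)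
    {A : ValuationSubring Q̄} (hA : A.LiesOverPrime q) {σ : GQ} (hσ : σ ∈ A.inertiaSubgroupIn ℚ) :
    LinearMap.trace k _ ((wRho W p hΔ k).ρ σ) = 2 := by
  have h := charpoly_wRho_inertia (k := k) (hΔ := hΔ) hW hq hqp hA hσ
  rw [EC.FrobTrace.charpoly_of_finrank_eq_two (wRho W p hΔ k).finrank_eq] at h
  have h1 := congrArg (fun f => Polynomial.coeff f 1) h
  rw [show ((X : k[X]) - C 1) ^ 2 = X ^ 2 - C 2 * X + C 1 by
    rw [show (2 : k) = 1 + 1 by norm_num, map_add, map_one]; ring] at h1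
  simpa [coeff_C, coeff_one] using h1

/-- At a scalar prime the Frobenius elements act as scalars. -/
theorem wRho_frobenius_scalar {v : ℕ} (hv : ScalarAt W p v) {A : ValuationSubring Q̄}
    (hA : A.LiesOverPrime v) {F : GQ} (hF : A.IsFrobeniusAt F v) :
    ∃ c : k, (wRho W p hΔ k).ρ F = c • 1 := by
  obtain ⟨c, hc⟩ := hv.2 A hA F hF
  refine ⟨algebraMap (ZMod p) k (c : ZMod p), ?_⟩
  have h0 : (EC.Rep.residualRep W p hΔ).ρ F = (c : ZMod p) • (1 : Module.End (ZMod p) _) := by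
    refine LinearMap.ext fun x => ?_
    rw [LinearMap.smul_apply, Module.End.one_apply, Int.cast_smul_eq_zsmul]
    exact Subtype.ext (hc x.1 ((Submodule.mem_torsionBy_iff _ _).mp x.2))
  show LinearMap.baseChange k _ = _
  rw [h0, LinearMap.baseChange_smul, LinearMap.baseChange_one, ← algebraMap_smul k]
  rfl

section Matrices

variable (bb : Basis (Fin 2) k (wRho W p hΔ k).V)

/-- The residual matrices. -/
abbrev wMat : Gal →* M2 k :=
  matRes (wRho W p hΔ k) bb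

theorem wMat_apply (σ : Gal) :
    wMat bb σ = LinearMap.toMatrixAlgEquiv bb ((wRho W p hΔ k).ρ σ) := rfl

theorem det_wMat_apply (σ : Gal) : (wMat bb σ).det = LinearMap.det ((wRho W p hΔ k).ρ σ) :=
  LinearMap.det_toMatrix bb _

theorem trace_wMat_apply (σ : Gal) :
    (wMat bb σ).trace = LinearMap.trace k _ ((wRho W p hΔ k).ρ σ) :=
  (LinearMap.trace_eq_matrix_trace k bb _).symm

theorem det_wMat (σ : Gal) (a : ℕ) (h : ∀ μ : QBar, μ ^ p = 1 → σ μ = μ ^ a) :
    (wMat bb σ).det = (a : k) := by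
  rw [det_wMat_apply, det_wRho h]

/-- The hypothesis of Taylor and Wiles, when the quadratic polynomials split. -/
theorem twHyp_wMat (hp2 : p ≠ 2) (hW : W.IsSemistableModel) (hirr : W.ModRepIsIrreducible p)
    (hquad : ∀ f : (ZMod p)[X], f.natDegree = 2 →
      ∃ x : k, (f.map (algebraMap (ZMod p) k)).IsRoot x) :
    CFT.TWPrimes.TWHyp (wMat bb) := by
  refine ⟨?_, fun g => ?_, Patch.noLine_of_stable _ bb ⊤ fun V hV => ?_,
    fun H hH => Patch.noLine_of_stable _ bb H fun V hV =>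
      EC.Rep.residualRep_indexTwo_irreducible hW hp2 hirr k H hH V hV⟩
  · rw [← map_ofNat (algebraMap (ZMod p) k) 2]
    exact (_root_.map_ne_zero _).2 (EC.Rep.two_ne_zero_zmod hp2)
  · obtain ⟨x, hx⟩ := hquad (LinearMap.charpoly ((EC.Rep.residualRep W p hΔ).ρ g)) (by
        rw [LinearMap.charpoly_natDegree, ResidualGaloisRep.finrank_eq])
    rw [← charpoly_wRho, EC.FrobTrace.charpoly_of_finrank_eq_two (wRho W p hΔ k).finrank_eq] at hx
    refine ⟨x, LinearMap.trace k _ ((wRho W p hΔ k).ρ g) - x, ?_, ?_⟩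
    · rw [trace_wMat_apply]
      ring
    · rw [det_wMat_apply]
      simp at hx
      linear_combination hx
  · exact EC.Rep.baseChange_residualRep_isIrreducible _ hp2 hirr k V
      fun σ x hx => hV σ (Subgroup.mem_top σ) x hx

theorem wMat_inertia_eq_one (hp2 : p ≠ 2) (hW : W.IsSemistableModel) {q : ℕ} (hq : q.Prime)
    (hqp : q ≠ p) (h : SmallAt W p q) {A : ValuationSubring QBar} (hA : A.LiesOverPrime q)
    {τ : Gal} (hτ : τ ∈ A.inertiaSubgroupIn ℚ) : wMat bb τ = 1 := by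
  rw [wMat_apply, isUnramifiedAt_wRho_of_smallAt hp2 hW hq hqp h A hA τ hτ, map_one]

theorem wMat_inertia_unipotent (hW : W.IsSemistableModel) {q : ℕ} (hq : q.Prime) (hqp : q ≠ p)
    {A : ValuationSubring QBar} (hA : A.LiesOverPrime q) {τ : Gal}
    (hτ : τ ∈ A.inertiaSubgroupIn ℚ) : (wMat bb τ).trace = 2 ∧ (wMat bb τ).det = 1 := by
  refine ⟨(trace_wMat_apply bb τ).trans (trace_wRho_inertia hW hq hqp hA hτ), ?_⟩
  rw [det_wMat bb τ 1 fun μ hμ => ?_, Nat.cast_one]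
  rw [pow_one]
  exact Arith.inertia_root hA hq hτ hμ fun h =>
    hqp ((Nat.prime_dvd_prime_iff_eq hq Fact.out).1 h)

theorem exists_wMat_inertia_ne_one (hp2 : p ≠ 2) (hW : W.IsSemistableModel) {q : ℕ} (hq : q.Prime)
    (hqp : q ≠ p) (h : ¬ SmallAt W p q) {A : ValuationSubring QBar} (hA : A.LiesOverPrime q) :
    ∃ τ ∈ A.inertiaSubgroupIn ℚ, wMat bb τ ≠ 1 := by
  obtain ⟨τ, hτ, hne⟩ := exists_wRho_inertia_ne_one (hΔ := hΔ) (k := k) hp2 hW hq hqp h hA
  refine ⟨τ, hτ, fun h1 => hne ((LinearMap.toMatrixAlgEquiv bb).injective ?_)⟩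
  rw [map_one]
  exact h1

theorem wMat_frobenius_scalar {v : ℕ} (hv : ScalarAt W p v) {A : ValuationSubring QBar}
    (hA : A.LiesOverPrime v) {F : Gal} (hF : A.IsFrobeniusAt F v) :
    ∃ c : k, wMat bb F = c • 1 := by
  obtain ⟨c, hc⟩ := wRho_frobenius_scalar (hΔ := hΔ) (k := k) hv hA hF
  exact ⟨c, by rw [wMat_apply, hc, map_smul, map_one]⟩

end Matrices

/-- The system is not Eisenstein. -/
theorem exists_wAbar_ne (hp2 : p ≠ 2) (hΔ : W.Δ ≠ 0) (hirr : W.ModRepIsIrreducible p)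
    (S : Finset ℕ) : ∃ ℓ : ℕ, ℓ.Prime ∧ ℓ ∉ S ∧ wAbar W k ℓ ≠ 1 + (ℓ : k) := by
  obtain ⟨ℓ, hℓ, hℓS, -, -, hne⟩ := EC.Rep.exists_apOfModel_ne hp2 hirr hΔ S
  refine ⟨ℓ, hℓ, hℓS, fun h => hne ((algebraMap (ZMod p) k).injective ?_)⟩
  rw [map_add, map_one, map_intCast, map_natCast]
  exact h

end Fermat.Agent.RT.Lift59

end
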