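import Fermat.Agent.RT.Lift59.Scalar.Curve
import Fermat.Agent.EC.Rep.Local.StrictOrdinary

/-!
# Two bases of `E[p]` at `p`

One adapted to a frame, on tame inertia; one in which the decomposition group is triangular with
lower diagonal entry of square one.
-/

set_option autoImplicit false
set_option linter.style.haveILetI false

open scoped WeierstrassCurve.Affine Pointwise
open WeierstrassCurve WeierstrassCurve.Affine Fermat.Agent.Arith

noncomputable section

namespace Fermat.Agent.RT.Lift59.Scalar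

open Fermat.Agent.EC.Rep Fermat.Agent.CFT.Flat Fermat.Agent.RT.MazurP Module

variable {W : WeierstrassCurve ℤ} {p : ℕ} [hp : Fact p.Prime] {hΔ0 : W.Δ ≠ 0}

/-- A basis in which tame inertia is unipotent with an upper entry having no unit radical. -/
theorem exists_frame_basis (hp2 : p ≠ 2) (hΔ : (p : ℤ) ∣ W.Δ)
    (hc₄ : ¬ (p : ℤ) ∣ W.c₄) (hns : ¬ p ∣ padicValInt p W.Δ) :
    ∃ (g : Basis (Fin 2) (ZMod p) (residualRep W p hΔ0).V) (c : GQ → ZMod p),
      (∀ σ ∈ tame p, LinearMap.toMatrix g g ((residualRep W p hΔ0).ρ σ) = !![1, c σ; 0, 1]) ∧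
      ∀ α, IsEigen p c α → nrm p α = 1 → False := by
  classical
  obtain ⟨⟨F⟩, -⟩ := MazurP.exists_frame (CFT.Local.padicPlace_liesOverPrime p) hp2 hΔ0 hΔ hc₄
  let r : (residualRep W p hΔ0).V := ⟨F.R, (Submodule.mem_torsionBy_iff _ _).mpr F.hR⟩
  let s : (residualRep W p hΔ0).V := ⟨F.S, (Submodule.mem_torsionBy_iff _ _).mpr F.hS⟩
  have hspan : ⊤ ≤ Submodule.span (ZMod p) (Set.range ![r, s]) := by
    intro v _
    obtain ⟨a, b, hab⟩ := F.span v.1 ((Submodule.mem_torsionBy_iff _ _).mp v.2)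
    have e : v = (a : ZMod p) • r + (b : ZMod p) • s := by
      rw [Int.cast_smul_eq_zsmul, Int.cast_smul_eq_zsmul]
      exact Subtype.ext hab
    rw [e]
    exact add_mem (Submodule.smul_mem _ _ (Submodule.subset_span ⟨0, rfl⟩))
      (Submodule.smul_mem _ _ (Submodule.subset_span ⟨1, rfl⟩))
  let g := basisOfTopLeSpanOfCardEqFinrank ![r, s] hspan
    (by rw [Fintype.card_fin, (residualRep W p hΔ0).finrank_eq])
  have hg0 : g 0 = r := by simp [g]
  have hg1 : g 1 = s := by simp [g]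
  have hb : ∀ σ : GQ, ∃ c : ZMod p, σ ∈ tame p → σ • F.S = F.S + ((c.val : ℤ)) • F.R := fun σ => by
    by_cases hσ : σ ∈ tame p
    · obtain ⟨b, hb⟩ := F.smul_S σ ((mem_tame p).1 hσ).1
      exact ⟨b, fun _ => by
        rw [hb, MazurP.zsmul_congr F.hR (a := b) (b := ((b : ZMod p).val : ℤ)) (by
          push_cast; rw [ZMod.natCast_val, ZMod.cast_id])]⟩
    · exact ⟨0, fun h => absurd h hσ⟩
  choose c hc using hb
  refine ⟨g, c, fun σ hσ => ?_, fun α hα hα1 =>
    false_of_frame_unit_radical hp2 hΔ0 hΔ hc₄ hns F (fun σ hσ => hc σ hσ) hα hα1⟩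
  have e0 : (residualRep W p hΔ0).ρ σ (g 0) = g 0 := by
    rw [hg0]
    exact Subtype.ext (F.smul_R_of_mem (mem_tameKer_of_mem_tame hσ))
  have e1 : (residualRep W p hΔ0).ρ σ (g 1) = c σ • g 0 + g 1 := by
    rw [hg0, hg1, ← ZMod.cast_id _ (c σ), ← ZMod.natCast_val, ← Int.cast_natCast,
      Int.cast_smul_eq_zsmul]
    exact Subtype.ext ((hc σ hσ).trans (add_comm _ _))
  ext i j
  fin_cases i <;> fin_cases j <;> simp [LinearMap.toMatrix_apply, e0, e1]

/-- A basis in which the decomposition group is triangular, with lower entry of square one. -/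
theorem exists_decomposition_basis (hp2 : p ≠ 2) (hΔ : (p : ℤ) ∣ W.Δ) (hc₄ : ¬ (p : ℤ) ∣ W.c₄) :
    ∃ f : Basis (Fin 2) (ZMod p) (residualRep W p hΔ0).V,
      (∀ σ ∈ decG p, LinearMap.toMatrix f f ((residualRep W p hΔ0).ρ σ) 1 0 = 0 ∧
        LinearMap.toMatrix f f ((residualRep W p hΔ0).ρ σ) 1 1 ^ 2 = 1) ∧
      ∀ σ ∈ tame p, LinearMap.toMatrix f f ((residualRep W p hΔ0).ρ σ) 0 0 = 1 ∧
        LinearMap.toMatrix f f ((residualRep W p hΔ0).ρ σ) 1 1 = 1 := by
  classical
  obtain ⟨L, ⟨f, rfl⟩, hD, hI, hxz⟩ :=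
    (isStrictOrdinaryAt_residualRep (hΔ := hΔ0) hp2 hΔ hc₄).2 (padicPlace p)
      (CFT.Local.padicPlace_liesOverPrime p)
  let f' : Basis (Fin 2) (ZMod p) (residualRep W p hΔ0).V := f
  refine ⟨f', fun σ hσ => ?_, fun σ hσ => ?_⟩
  · obtain ⟨x, z, hx, hz, hcong⟩ := hxz σ hσ
    obtain ⟨a, ha⟩ := Submodule.mem_span_singleton.1 (hz (f' 1))
    have e0 : (residualRep W p hΔ0).ρ σ (f' 0) = x • f' 0 :=
      hx _ (Submodule.mem_span_singleton_self _)
    have e1 : (residualRep W p hΔ0).ρ σ (f' 1) = a • f' 0 + z • f' 1 :=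
      (sub_eq_iff_eq_add.1 ha.symm)
    have hM : LinearMap.toMatrix f' f' ((residualRep W p hΔ0).ρ σ) = !![x, a; 0, z] := by
      ext i j
      fin_cases i <;> fin_cases j <;> simp [LinearMap.toMatrix_apply, e0, e1]
    obtain ⟨n, hn⟩ := (zp_spec p).eq_pow_of_pow_eq_one (ξ := σ (zp p))
      (by rw [← map_pow, (zp_spec p).pow_eq_one, map_one])
    have hroots : ∀ μ : QBar, μ ^ p = 1 → σ μ = μ ^ n := fun μ hμ => by
      obtain ⟨j, -, rfl⟩ := (zp_spec p).eq_pow_of_pow_eq_one hμ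
      rw [map_pow, ← hn.2, pow_right_comm]
    have h1 := hcong 1 n (fun μ hμ => hroots μ (by rwa [pow_one] at hμ))
    rw [pow_one, ZMod.natCast_self, Ideal.mem_span_singleton, zero_dvd_iff, sub_eq_zero] at h1
    have hd : x * z = (n : ZMod p) := by
      have h2 := det_residualRep (W := W) hΔ0 (card_rootsOfUnity_qbar p) σ
      rw [Arith.modularCyclotomicCharacter_eq_natCast (card_rootsOfUnity_qbar p) hroots,
        ← LinearMap.det_toMatrix f', hM, Matrix.det_fin_two] at h2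
      simpa using h2
    rw [hM]
    refine ⟨rfl, ?_⟩
    show z ^ 2 = 1
    have hn0 : (n : ZMod p) ≠ 0 := by
      rw [Ne, ZMod.natCast_eq_zero_iff]
      intro hdvd
      have h0 : σ (zp p) = 1 := by
        rw [← hn.2]
        exact ((zp_spec p).pow_eq_one_iff_dvd n).2 hdvd
      exact (zp_spec p).ne_one hp.out.one_lt (σ.injective (h0.trans (map_one σ).symm))
    refine mul_left_cancel₀ hn0 ?_
    rw [mul_one, sq, ← mul_assoc, ← h1, hd]
  · have hσI := ((mem_tame p).1 hσ).1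
    obtain ⟨x, hx⟩ := Submodule.mem_span_singleton.1
      (hD σ (inG_le_decG p hσI) (f' 0) (Submodule.mem_span_singleton_self _))
    obtain ⟨a, ha⟩ := Submodule.mem_span_singleton.1 (hI σ hσI (f' 1))
    have e0 : (residualRep W p hΔ0).ρ σ (f' 0) = x • f' 0 := hx.symm
    have e1 : (residualRep W p hΔ0).ρ σ (f' 1) = a • f' 0 + f' 1 :=
      (sub_eq_iff_eq_add.1 ha.symm)
    have h2 := det_residualRep (W := W) hΔ0 (card_rootsOfUnity_qbar p) σ
    rw [Arith.modularCyclotomicCharacter_eq_natCast (card_rootsOfUnity_qbar p) (c := 1)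
      (fun μ hμ => by
        obtain ⟨j, -, rfl⟩ := (zp_spec p).eq_pow_of_pow_eq_one hμ
        rw [map_pow, pow_one]
        exact congrArg (· ^ j) (tame_fixes_zeta p (zp_spec p) hσ)),
      ← LinearMap.det_toMatrix f'] at h2
    have hM : LinearMap.toMatrix f' f' ((residualRep W p hΔ0).ρ σ) = !![x, a; 0, 1] := by
      ext i j
      fin_cases i <;> fin_cases j <;> simp [LinearMap.toMatrix_apply, e0, e1]
    rw [hM] at h2 ⊢
    simp [Matrix.det_fin_two] at h2
    exact ⟨by simpa using h2, rfl⟩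

end Fermat.Agent.RT.Lift59.Scalar

end
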