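import Fermat.Agent.RT.Lift59.Scalar.Level
import Fermat.Agent.RT.Assembly.Coeff
import Fermat.Agent.RT.Patch.Level
import Fermat.Agent.RT.Lift59.PrimesInputProof

/-!
# Level lowering at the scalar primes of a semistable model
-/

set_option autoImplicit false
set_option linter.style.haveILetI false

noncomputable section

open WeierstrassCurve WeierstrassCurve.Affine WeierstrassCurve.Affine.Point Polynomial
open scoped WeierstrassCurve.Affine TensorProduct

namespace Fermat.Agent.RT.Lift59.Scalar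

open Fermat.Agent.Deform Fermat.Agent.RT.Assembly Fermat.Agent.Arith
open IsLocalRing Module

/-- The ordinary first order deformations of the residual representations of semistable models
which are not finite at `p` are strictly ordinary. -/
def TresInput : Prop :=
  ∀ (W : WeierstrassCurve ℤ) (p : ℕ) [Fact p.Prime] (hΔ : W.Δ ≠ 0), p ≠ 2 → W.IsSemistableModel →
    ¬ SmallAt W p p → ∀ (k : Type) [Field k] [Finite k] [Algebra (ZMod p) k]
      (bb : Basis (Fin 2) k (wRho W p hΔ k).V), StrictLift p (wMat bb)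

set_option maxHeartbeats 1600000 in
/-- **Level lowering at the scalar primes by patching.** -/
theorem scalarInput_of (hT : TresInput) : ScalarInput := by
  intro W p N v₀ hset hseed hsq hscal hpN hv₀ hv₀p hv₀N hv₀s
  by_contra hlow
  classical
  have hpp : p.Prime := hset.hp.1
  have hp2 : p ≠ 2 := hset.hp.2
  have := Fact.mk hpp
  have hΔ := hset.hΔ
  have hW := hset.hW
  have hirr := hset.hirr
  have : NeZero N := ⟨hseed.pos.ne'⟩
  obtain ⟨O, _, _, _, _, _, _, _, hp, ⟨ζ, hζ⟩, hquad, φ, hφinj, hφ⟩ := exists_coeff p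
  letI : Algebra (ZMod p) (ResidueField O) := ZMod.algebra (ResidueField O) p
  set bb := Module.finBasisOfFinrankEq (ResidueField O) (wRho W p hΔ (ResidueField O)).V
    (wRho W p hΔ (ResidueField O)).finrank_eq
  obtain ⟨Rg, hRg⟩ := exists_rigid (wRho W p hΔ (ResidueField O))
    (isAbsolutelyIrreducible_wRho hp2 hirr) bb
  have hTW : CFT.TWPrimes.TWHyp (wMat bb) := twHyp_wMat bb hp2 hW hirr fun f hf => by
    obtain ⟨x, hx⟩ := hquad f hf
    exact ⟨x, by rwa [show algebraMap (ZMod p) (ResidueField O) = ZMod.castHom (dvd_refl p) _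
      from RingHom.ext_zmod _ _]⟩
  set V' := N.primeFactors.filter fun v => v ≠ p ∧ SmallAt W p v
  have hV' : ∀ v, v ∈ V' ↔ v.Prime ∧ v ≠ p ∧ v ∣ N ∧ SmallAt W p v := fun v => by
    rw [Finset.mem_filter, Nat.mem_primeFactors]
    exact ⟨fun h => ⟨h.1.1, h.2.1, h.1.2.1, h.2.2⟩,
      fun h => ⟨⟨h.1, h.2.2.1, NeZero.ne N⟩, h.2.1, h.2.2.2⟩⟩
  set Sr := W.Δ.natAbs.primeFactors.filter fun ℓ => ℓ ≠ p ∧ ¬ SmallAt W p ℓ
  have hSr : ∀ ℓ, ℓ ∈ Sr ↔ ℓ.Prime ∧ ℓ ≠ p ∧ ¬ SmallAt W p ℓ := fun ℓ => by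
    rw [Finset.mem_filter, Nat.mem_primeFactors]
    refine ⟨fun h => ⟨h.1.1, h.2.1, h.2.2⟩, fun h => ⟨⟨h.1, ?_, Int.natAbs_ne_zero.2 hΔ⟩, h.2⟩⟩
    by_contra hd
    refine h.2.2 ?_
    rw [SmallAt, padicValInt.eq_zero_of_not_dvd fun hdi => hd (Int.natCast_dvd.1 hdi)]
    exact dvd_zero p
  have hv₀V : v₀ ∈ V' := (hV' v₀).2 ⟨hv₀, hv₀p, hv₀N, hv₀s⟩
  have hVsc : ∀ v ∈ V', ScalarAt W p v := fun v hv => by
    obtain ⟨h1, h2, h3, h4⟩ := (hV' v).1 hv
    exact hscal v h1 h2 h3 h4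
  -- the auxiliary primes
  have hV'p : ∀ v ∈ V', v.Prime ∧ v ≠ p ∧ v ∉ Sr := fun v hv => by
    obtain ⟨h1, h2, -, h4⟩ := (hV' v).1 hv
    exact ⟨h1, h2, fun h => ((hSr v).1 h).2.2 h4⟩
  obtain ⟨R, hR⟩ := primesInput (ResidueField O) p hp2 (wMat bb) hTW
    (CFT.TWPrimes.finiteLevel_matRes _ bb) (det_wMat bb) Sr V' ∅
    (Finset.disjoint_left.2 fun v h h' => (hV'p v h').2.2 h) (Finset.disjoint_empty_right _)
    (Finset.disjoint_empty_right _)
    (fun v hv => by
      simp only [Finset.mem_union, Finset.notMem_empty, or_false] at hv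
      rcases hv with hv | hv
      · exact ⟨((hSr v).1 hv).1, ((hSr v).1 hv).2.1⟩
      · exact ⟨(hV'p v hv).1, (hV'p v hv).2.1⟩)
    (fun ℓ hℓ hℓp hℓS A hA τ hτ => wMat_inertia_eq_one bb hp2 hW hℓ hℓp
      (by by_contra hs; exact hℓS ((hSr ℓ).2 ⟨hℓ, hℓp, hs⟩)) hA hτ)
    (fun ℓ hℓ A hA => ⟨fun τ hτ =>
      wMat_inertia_unipotent bb hW ((hSr ℓ).1 hℓ).1 ((hSr ℓ).1 hℓ).2.1 hA hτ,
      exists_wMat_inertia_ne_one bb hp2 hW ((hSr ℓ).1 hℓ).1 ((hSr ℓ).1 hℓ).2.1
        ((hSr ℓ).1 hℓ).2.2 hA⟩)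
    (fun v hv A hA F hF => wMat_frobenius_scalar bb (hVsc v hv) hA hF)
    N.primeFactors
  have h3R : 3 * V'.card ≤ R := by
    obtain ⟨q, -, -, -, hq⟩ := hR 0
    have h := hq .flat trivial ⊥ inferInstance
      ⟨by simp [CFT.Tangent.IsAdCocycle],
        fun b hb => by
          rw [Submodule.mem_bot] at hb
          subst hb
          exact ⟨⊥, inferInstance, fun _ _ => rfl⟩,
        fun b hb σ => by rw [Submodule.mem_bot] at hb; subst hb; simp,
        fun b hb X _ => Submodule.mem_bot _ |>.1 hb,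
        fun b hb _ _ _ _ _ _ _ A _ τ _ => by rw [Submodule.mem_bot] at hb; subst hb; rfl,
        fun b hb _ _ A _ τ _ => by rw [Submodule.mem_bot] at hb; subst hb; simp,
        fun b hb v _ _ g _ => by rw [Submodule.mem_bot] at hb; subst hb; rfl,
        fun _ _ v _ hv => absurd hv (Finset.notMem_empty v),
        fun b hb hne => absurd (Submodule.mem_bot _ |>.1 hb) hne⟩
    omega
  -- the coefficients
  have h2k : (2 : ResidueField O) ≠ 0 := by
    rw [← map_ofNat (algebraMap (ZMod p) (ResidueField O)) 2]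
    exact (_root_.map_ne_zero _).2 (EC.Rep.two_ne_zero_zmod hp2)
  have h2 : (2 : O) ∉ maximalIdeal O := fun h => h2k (by
    rw [← map_ofNat (residue O) 2, residue_eq_zero_iff]; exact h)
  obtain ⟨c, hc'⟩ := (notMem_maximalIdeal.1 h2).exists_right_inv
  obtain ⟨π, hπ⟩ := IsDiscreteValuationRing.exists_irreducible O
  set ζi := ζ ^ (p - 1)
  have hζi : ζ * ζi = 1 := by
    rw [← pow_succ', Nat.sub_add_cancel hpp.one_le, hζ.pow_eq_one]
  have hres : residue O ζ = 1 := by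
    refine sub_eq_zero.1 (eq_zero_of_pow_eq_zero (n := p) ?_)
    rw [sub_pow_char, one_pow, ← map_pow, hζ.pow_eq_one, map_one, sub_self]
  have hne : ζ ≠ ζi := fun h => by
    have h' : ζ ^ 2 = 1 := (sq ζ).trans ((congrArg (ζ * ·) h).trans hζi)
    exact hp2 ((Nat.prime_dvd_prime_iff_eq hpp Nat.prime_two).1 ((hζ.pow_eq_one_iff_dvd 2).1 h'))
  have hc0 : c ≠ 0 := fun h => by rw [h, mul_zero] at hc'; exact zero_ne_one hc'
  -- the levels
  have hP : ∀ n : ℕ, Nonempty (PatchLevel (fun _ : V' => c * (ζ - ζi))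
      (frobRel (g := R - 3 * V'.card) c (⟨v₀, hv₀V⟩ : V') v₀) π p R (Patch.rankBound O N R) n) := by
    intro n
    obtain ⟨q, hinj, hq, hreg, hbd⟩ := hR n
    refine exists_patchLevel (hΔ := hΔ) hp hp2 hζ hζi hc' hπ hW hirr bb hRg hsq hseed.res hpN
      (fun hs => hRg ▸ hT W p hΔ hp2 hW hs (ResidueField O) bb) hSr hV' hVsc hv₀V hlow hinj
      (fun i => ?_) hreg (hRg ▸ fun c hc W hWf hWs => ?_)
    · obtain ⟨h1, h2, h3, h5, h6⟩ := hq i
      exact ⟨h1, fun h => h2 (Nat.mem_primeFactors.2 ⟨h1, h, NeZero.ne N⟩), h5,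
        fun h => h3 (by simp [h]), h6⟩
    · have h := hbd c (by rcases hc with rfl | rfl <;> trivial) W hWf hWs
      omega
  have key := coeff_mem_maximalIdeal_of_patchLevels (K := ℂ_[p]) φ hφinj hφ
    (Patch.norm_two_padicComplex hp2) (fun _ => mul_ne_zero hc0 (sub_ne_zero.2 hne))
    (fun _ => Ideal.mul_mem_left _ _ (by
      rw [← residue_eq_zero_iff, map_sub, map_pow, hres, one_pow, sub_self]))
    hpp hp (by rw [Nat.card_eq_fintype_card, Fintype.card_coe]; omega) hπ hP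
    (d := Finsupp.single (Sum.inl ((⟨v₀, hv₀V⟩ : V'), (1 : Fin 2), (0 : Fin 3))) 2)
    (fun v l => Finsupp.single_eq_of_ne (by simp))
  rw [Patch.coeff_frobRel] at key
  exact (maximalIdeal.isMaximal O).ne_top ((Ideal.eq_top_iff_one _).2 key)

end Fermat.Agent.RT.Lift59.Scalar

end
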