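import Fermat.Agent.RT.Lift59.Scalar.Triangular
import Fermat.Agent.RT.Lift59.Scalar.Line
import Fermat.Agent.RT.Lift59.Scalar.Main

/-!
# Ordinary first order deformations are strictly ordinary when `p ∤ v(Δ)`

For `F` in the decomposition group the upper entry `u` on tame inertia satisfies
`u (F σ F⁻¹) = χ (F) z⁻² u (σ)`; if `z` were not constant, the homomorphism of inertia on `E[p]`
would have the unit radical `F⁻¹ α / α`.
-/

set_option autoImplicit false
set_option linter.style.haveILetI false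

noncomputable section

open WeierstrassCurve WeierstrassCurve.Affine

namespace Fermat.Agent.RT.Lift59.Scalar

open Fermat.Agent.Deform Fermat.Agent.Arith Fermat.Agent.CFT.Tangent Fermat.Agent.CFT.Flat
open Module Matrix TrivSqZeroExt IsLocalRing
open scoped Pointwise

variable {p : ℕ} [hp : Fact p.Prime]

theorem conj_mem_tame {F σ : GQ} (hF : F ∈ decG p) (hσ : σ ∈ tame p) :
    F * σ * F⁻¹ ∈ tame p := by
  simpa using CFT.Flat.conj_mem_tame ((decG p).inv_mem hF) hσ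

/-- Strict ordinarity from lower entries of square one at one place. -/
theorem isStrictOrdinaryAt_of_sq {A : Type} [CommRing A] [IsLocalRing A] {ρ : GaloisRepAdic A}
    (hdet : ρ.DetIsCyclotomic p) (b : Basis (Fin 2) A ρ.V)
    (hI : ∀ σ ∈ inG p, ∀ v : ρ.V, ρ.ρ σ v - v ∈ A ∙ b 0)
    (hD : ∀ σ ∈ decG p, matOf ρ b σ 1 0 = 0 ∧ matOf ρ b σ 1 1 ^ 2 = 1) :
    ρ.IsStrictOrdinaryAt p := by
  refine ⟨hdet.1, fun P hP => ?_⟩
  obtain ⟨g, rfl⟩ := exists_smul_eq (CFT.Local.padicPlace_liesOverPrime p) hP hp.out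
  let T : ρ.V ≃ₗ[A] ρ.V := LinearEquiv.ofLinearMap (ρ.ρ g) (ρ.ρ g⁻¹)
    (by rw [← Module.End.mul_eq_comp, ← map_mul, mul_inv_cancel, map_one]; rfl)
    (by rw [← Module.End.mul_eq_comp, ← map_mul, inv_mul_cancel, map_one]; rfl)
  let b' := b.map T
  have hconj : ∀ σ v, ρ.ρ σ (T v) = T (ρ.ρ (g⁻¹ * σ * g) v) := fun σ v => by
    show ρ.ρ σ (ρ.ρ g v) = ρ.ρ g (ρ.ρ (g⁻¹ * σ * g) v)
    rw [← Module.End.mul_apply, ← map_mul, ← Module.End.mul_apply, ← map_mul, mul_assoc g⁻¹,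
      mul_inv_cancel_left]
  have hT : ∀ w, w ∈ A ∙ b 0 → T w ∈ A ∙ b' 0 := fun w hw => by
    obtain ⟨a, rfl⟩ := Submodule.mem_span_singleton.1 hw
    exact Submodule.mem_span_singleton.2 ⟨a, by rw [Basis.map_apply, map_smul]⟩
  have hdec : ∀ σ ∈ (g • padicPlace p).decompositionSubgroup ℚ, g⁻¹ * σ * g ∈ decG p :=
    fun σ hσ => by
    rw [mem_decomposition_iff] at hσ
    refine mem_decomposition_iff.2 ?_
    rw [mul_smul, mul_smul, hσ, inv_smul_smul]
  have hin : ∀ σ ∈ (g • padicPlace p).inertiaSubgroupIn ℚ, g⁻¹ * σ * g ∈ inG p := fun σ hσ => by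
    refine (mem_inertia_smul_iff (g := g)).1 ?_
    rwa [show g * (g⁻¹ * σ * g) * g⁻¹ = σ by group]
  have hexp : ∀ τ ∈ decG p, ρ.ρ τ (b 0) = matOf ρ b τ 0 0 • b 0 ∧
      ∀ v, ρ.ρ τ v - matOf ρ b τ 1 1 • v ∈ A ∙ b 0 := fun τ hτ => by
    have e : ∀ j, ρ.ρ τ (b j) = matOf ρ b τ 0 j • b 0 + matOf ρ b τ 1 j • b 1 := fun j => by
      conv_lhs => rw [← b.sum_repr (ρ.ρ τ (b j)), Fin.sum_univ_two]
      show _ = LinearMap.toMatrix b b (ρ.ρ τ) 0 j • b 0 + LinearMap.toMatrix b b (ρ.ρ τ) 1 j • b 1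
      rw [LinearMap.toMatrix_apply, LinearMap.toMatrix_apply]
    refine ⟨by rw [e, (hD τ hτ).1, zero_smul, add_zero], fun v => ?_⟩
    refine Submodule.mem_span_singleton.2
      ⟨b.repr v 0 * matOf ρ b τ 0 0 + b.repr v 1 * matOf ρ b τ 0 1 -
        matOf ρ b τ 1 1 * b.repr v 0, ?_⟩
    conv_rhs => rw [← b.sum_repr v, Fin.sum_univ_two, map_add, map_smul, map_smul, e, e,
      (hD τ hτ).1, zero_smul, add_zero]
    module
  refine ⟨A ∙ b' 0, ⟨b', rfl⟩, fun σ hσ v hv => ?_, fun σ hσ v => ?_, fun σ hσ => ?_⟩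
  · obtain ⟨a, rfl⟩ := Submodule.mem_span_singleton.1 hv
    rw [map_smul, Basis.map_apply, hconj, (hexp _ (hdec σ hσ)).1, map_smul, ← Basis.map_apply]
    exact Submodule.smul_mem _ _ (Submodule.smul_mem _ _ (Submodule.mem_span_singleton_self _))
  · obtain ⟨w, rfl⟩ := T.surjective v
    rw [hconj, ← map_sub]
    exact hT _ (hI _ (hin σ hσ) w)
  · set τ := g⁻¹ * σ * g with hτ
    obtain ⟨h10, hz⟩ := hD τ (hdec σ hσ)
    refine ⟨matOf ρ b τ 0 0, matOf ρ b τ 1 1, fun w hw => ?_, fun v => ?_, fun n a ha => ?_⟩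
    · obtain ⟨e, rfl⟩ := Submodule.mem_span_singleton.1 hw
      rw [map_smul, Basis.map_apply, hconj, ← hτ, (hexp τ (hdec σ hσ)).1, map_smul, smul_comm]
    · obtain ⟨w, rfl⟩ := T.surjective v
      rw [hconj, ← hτ, ← map_smul, ← map_sub]
      exact hT _ ((hexp τ (hdec σ hσ)).2 w)
    · have hroots : ∀ μ : QBar, μ ^ p ^ n = 1 → τ μ = μ ^ a := fun μ hμ => by
        rw [hτ, AlgEquiv.mul_apply, AlgEquiv.mul_apply, ha (g μ) (by rw [← map_pow, hμ, map_one]),
          map_pow, ← AlgEquiv.mul_apply, inv_mul_cancel, AlgEquiv.one_apply]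
      have h := hdet.2 n τ a hroots
      rw [← LinearMap.det_toMatrix b, Matrix.det_fin_two] at h
      have h' : matOf ρ b τ 0 0 * matOf ρ b τ 1 1 - matOf ρ b τ 0 1 * matOf ρ b τ 1 0 - (a : A) ∈
        Ideal.span {((p ^ n : ℕ) : A)} := h
      rw [h10, mul_zero, sub_zero] at h'
      rw [show matOf ρ b τ 0 0 - (a : A) * matOf ρ b τ 1 1 = matOf ρ b τ 1 1 *
        (matOf ρ b τ 0 0 * matOf ρ b τ 1 1 - (a : A)) by
          linear_combination (-(matOf ρ b τ 0 0)) * hz]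
      exact Ideal.mul_mem_left _ _ h'

variable {k : Type} [Field k]

set_option linter.unusedSectionVars false in
theorem natCast_dual_eq_zero [CharP k p] : ((p : ℕ) : DualNumber k) = 0 := by
  rw [← map_natCast (algebraMap k (DualNumber k)), CharP.cast_eq_zero, map_zero]

theorem maximalIdeal_dual_sq : maximalIdeal (DualNumber k) ^ 2 = ⊥ := by
  rw [eq_bot_iff, pow_two, Ideal.mul_le]
  intro x hx y hy
  simp only [IsLocalRing.mem_maximalIdeal, _root_.mem_nonunits_iff,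
    TrivSqZeroExt.isUnit_iff_isUnit_fst, isUnit_iff_ne_zero, not_not] at hx hy
  exact (Submodule.mem_bot _).2 (TrivSqZeroExt.ext (by simp [hx]) (by simp [hx, hy]))

variable {W : WeierstrassCurve ℤ} [Algebra (ZMod p) k] [Finite k] {hΔ : W.Δ ≠ 0}

omit [Finite k] in
set_option maxHeartbeats 1000000 in
/-- Lower entries of square one. -/
theorem sq_lower_eq_one (hp2 : p ≠ 2) (hW : W.IsSemistableModel) (hns : ¬ SmallAt W p p)
    (bb : Basis (Fin 2) k (wRho W p hΔ k).V)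
    {ρ : GaloisRepAdic (DualNumber k)} (B b : Basis (Fin 2) (DualNumber k) ρ.V)
    (hB : ∀ σ, fstM (matOf ρ B σ) = wMat bb σ) (hdet : ρ.DetIsCyclotomic p)
    (hlow : ∀ σ ∈ decG p, matOf ρ b σ 1 0 = 0)
    (hin : ∀ σ ∈ inG p, matOf ρ b σ 1 1 = 1) {F : GQ} (hF : F ∈ decG p) :
    matOf ρ b F 1 1 ^ 2 = 1 := by
  classical
  have hchar : CharP k p :=
    charP_of_injective_algebraMap (algebraMap (ZMod p) k).injective p
  have hpΔ : (p : ℤ) ∣ W.Δ := by
    by_contra hd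
    exact hns (by rw [SmallAt, padicValInt.eq_zero_of_not_dvd hd]; exact dvd_zero p)
  have hc₄ := hW p hp.out hpΔ
  have hns' : ¬ p ∣ padicValInt p W.Δ := hns
  obtain ⟨g, c, hg, hrad⟩ := exists_frame_basis (hΔ0 := hΔ) hp2 hpΔ hc₄ hns'
  obtain ⟨f, hfD, hfI⟩ := exists_decomposition_basis (hΔ0 := hΔ) hp2 hpΔ hc₄
  set M : Gal →* M2 (DualNumber k) := matOf ρ b with hM
  -- roots of unity and determinants
  have hdet1 : ∀ (σ : GQ) (a : ℕ), σ (zp p) = zp p ^ a → (M σ).det = (a : DualNumber k) := by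
    intro σ a ha
    have h := hdet.2 1 σ a fun μ hμ => by
      obtain ⟨j, -, rfl⟩ := (zp_spec p).eq_pow_of_pow_eq_one (by rwa [pow_one] at hμ)
      rw [map_pow, ha, pow_right_comm]
    rw [pow_one, natCast_dual_eq_zero, Ideal.mem_span_singleton, zero_dvd_iff, sub_eq_zero] at h
    rw [← h]
    exact LinearMap.det_toMatrix b _
  have htame : ∀ σ ∈ tame p, M σ 0 0 = 1 ∧ M σ 1 0 = 0 ∧ M σ 1 1 = 1 := fun σ hσ => by
    have hI := ((mem_tame p).1 hσ).1
    have h := hdet1 σ 1 (by rw [tame_fixes_zeta p (zp_spec p) hσ, pow_one])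
    rw [Matrix.det_fin_two, hlow σ (inG_le_decG p hI), hin σ hI, mul_one, mul_zero, sub_zero,
      Nat.cast_one] at h
    exact ⟨h, hlow σ (inG_le_decG p hI), hin σ hI⟩
  -- residual bases
  let gk := extBasis (k := k) (hΔ := hΔ) g
  let fk := extBasis (k := k) (hΔ := hΔ) f
  set Q₀ : M2 k := fstM (b.toMatrix B) with hQ₀
  have hQ₀inv : Q₀ * fstM (B.toMatrix b) = 1 := by
    rw [hQ₀, ← fstM_mul, Basis.toMatrix_mul_toMatrix_flip, fstM_one]
  have hQ₀inv' : fstM (B.toMatrix b) * Q₀ = 1 := by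
    rw [hQ₀, ← fstM_mul, Basis.toMatrix_mul_toMatrix_flip, fstM_one]
  have hconj : ∀ (e : Basis (Fin 2) k (wRho W p hΔ k).V) (σ : GQ),
      (e.toMatrix bb * fstM (B.toMatrix b)) * fstM (M σ) =
        wMat e σ * (e.toMatrix bb * fstM (B.toMatrix b)) := fun e σ => by
    have h1 : fstM (B.toMatrix b) * fstM (M σ) = wMat bb σ * fstM (B.toMatrix b) := by
      rw [← hB, ← fstM_mul, ← fstM_mul]
      exact congrArg fstM (toMatrix_mul_toMatrixAlgEquiv b B (ρ.ρ σ))
    have h2 : e.toMatrix bb * wMat bb σ = wMat e σ * e.toMatrix bb :=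
      toMatrix_mul_toMatrixAlgEquiv bb e ((wRho W p hΔ k).ρ σ)
    rw [Matrix.mul_assoc, h1, ← Matrix.mul_assoc, h2, Matrix.mul_assoc]
  have hQdet : ∀ e : Basis (Fin 2) k (wRho W p hΔ k).V,
      (e.toMatrix bb * fstM (B.toMatrix b)).det ≠ 0 := fun e => by
    refine IsUnit.ne_zero ((Matrix.isUnit_iff_isUnit_det _).1 (IsUnit.mul ?_ ?_))
    · exact isUnit_iff_exists.2 ⟨bb.toMatrix e, Basis.toMatrix_mul_toMatrix_flip _ _,
        Basis.toMatrix_mul_toMatrix_flip _ _⟩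
    · exact isUnit_iff_exists.2 ⟨Q₀, hQ₀inv', hQ₀inv⟩
  set Qg := gk.toMatrix bb * fstM (B.toMatrix b)
  set Qf := fk.toMatrix bb * fstM (B.toMatrix b)
  have hgk : ∀ σ ∈ tame p, wMat gk σ 0 0 = 1 ∧ wMat gk σ 1 0 = 0 ∧ wMat gk σ 1 1 = 1 ∧
      wMat gk σ 0 1 = algebraMap (ZMod p) k (c σ) := fun σ hσ => by
    simp only [gk, wMat_extBasis_apply, hg σ hσ]
    simp
  have hMt : ∀ σ ∈ tame p, fstM (M σ) 0 0 = 1 ∧ fstM (M σ) 1 0 = 0 ∧ fstM (M σ) 1 1 = 1 :=
    fun σ hσ => by simp [fstM_apply, htame σ hσ]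
  -- an element of tame inertia moving the torsion
  obtain ⟨σ₁, hσ₁, hcσ₁⟩ : ∃ σ ∈ tame p, c σ ≠ 0 := by
    by_contra hall
    push Not at hall
    exact hrad 1 ⟨one_ne_zero, fun σ hσ => by simp [hall σ hσ]⟩ (nrm_one p)
  have hne₁ : wMat gk σ₁ ≠ 1 := fun h => hcσ₁ (by
    have := (hgk σ₁ hσ₁).2.2.2
    rw [h] at this
    simpa using this.symm)
  obtain ⟨hgQ, -, hg00, hg11⟩ := triangular_conj (hconj gk σ₁) (hQdet gk) (hMt σ₁ hσ₁)
    ⟨(hgk σ₁ hσ₁).1, (hgk σ₁ hσ₁).2.1, (hgk σ₁ hσ₁).2.2.1⟩ (Or.inr hne₁)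
  have hne₂ : fstM (M σ₁) ≠ 1 := fun h => by
    have h' := hconj gk σ₁
    rw [h, mul_one] at h'
    refine hne₁ (((Matrix.isUnit_iff_isUnit_det Qg).2
      (isUnit_iff_ne_zero.2 (hQdet gk))).mul_right_cancel ?_)
    rw [one_mul]
    exact h'.symm
  obtain ⟨hfQ, -, -, hf11⟩ := triangular_conj (hconj fk σ₁) (hQdet fk) (hMt σ₁ hσ₁)
    (by
      simp only [fk, wMat_extBasis_apply, (hfI σ₁ hσ₁).1, (hfI σ₁ hσ₁).2,
        (hfD σ₁ (inG_le_decG p ((mem_tame p).1 hσ₁).1)).1, map_one, map_zero]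
      exact ⟨trivial, trivial, trivial⟩) (Or.inl hne₂)
  -- the residual lower entry
  set κ : k := Qg 1 1 / Qg 0 0 with hκdef
  have hκ : κ ≠ 0 := div_ne_zero hg11 hg00
  have hu₀ : ∀ σ ∈ tame p, fst (M σ 0 1) = κ * algebraMap (ZMod p) k (c σ) := fun σ hσ => by
    have h01 := triangular_upper (hconj gk σ) (hMt σ hσ).2.2 (hgk σ hσ).1
    rw [(hgk σ hσ).2.2.2, fstM_apply] at h01
    rw [hκdef, div_mul_eq_mul_div, eq_div_iff hg00]
    linear_combination h01
  set z := M F 1 1 with hz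
  set x := M F 0 0 with hx
  have hz₀ : fst z ^ 2 = 1 := by
    have h := triangular_diag (hconj fk F) hfQ hf11 (by
      simp only [fk, wMat_extBasis_apply, (hfD F hF).1, map_zero])
    rw [fstM_apply, show wMat fk F 1 1 = algebraMap (ZMod p) k
      (LinearMap.toMatrix f f ((EC.Rep.residualRep W p hΔ).ρ F) 1 1) from
        wMat_extBasis_apply f F 1 1] at h
    rw [h, ← map_pow, (hfD F hF).2, map_one]
  obtain ⟨a, ha⟩ := (zp_spec p).eq_pow_of_pow_eq_one (ξ := F (zp p))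
    (by rw [← map_pow, (zp_spec p).pow_eq_one, map_one])
  have hxz : x * z = (a : DualNumber k) := by
    have h := hdet1 F a ha.2.symm
    rw [Matrix.det_fin_two, hlow F hF, mul_zero, sub_zero] at h
    exact h
  have hu : ∀ σ ∈ tame p, M (F * σ * F⁻¹) 0 1 * z ^ 2 = (a : DualNumber k) * M σ 0 1 := by
    intro σ hσ
    have hσ' := conj_mem_tame hF hσ
    have h : M (F * σ * F⁻¹) * M F = M F * M σ := by
      rw [← map_mul, ← map_mul, inv_mul_cancel_right]
    have h01 := congrFun (congrFun h 0) 1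
    simp only [Matrix.mul_apply, Fin.sum_univ_two, htame σ hσ, htame _ hσ', one_mul, mul_one] at h01
    linear_combination z * h01 + M σ 0 1 * hxz
  have hu' : ∀ σ ∈ tame p, fst (M (F * σ * F⁻¹) 0 1) = a * fst (M σ 0 1) ∧
      snd (M (F * σ * F⁻¹) 0 1) - a * snd (M σ 0 1) =
        -2 * fst z * snd z * a * κ * algebraMap (ZMod p) k (c σ) := by
    intro σ hσ
    have h1 := congrArg fst (hu σ hσ)
    have h2 := congrArg snd (hu σ hσ)
    simp only [fst_mul, fst_pow, fst_natCast, hz₀, mul_one] at h1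
    simp only [pow_two, snd_mul, fst_mul, snd_natCast, fst_natCast, MulOpposite.smul_eq_mul_unop,
      MulOpposite.unop_op, smul_eq_mul] at h2
    refine ⟨h1, ?_⟩
    rw [h1, hu₀ σ hσ] at h2
    linear_combination h2 - snd (M (F * σ * F⁻¹) 0 1) * hz₀
  by_contra hcon
  have hz1 : snd z ≠ 0 := fun h => hcon (by
    refine TrivSqZeroExt.ext ?_ ?_
    · rw [fst_pow, hz₀, fst_one]
    · simp [pow_two, h])
  have ha0 : (a : k) ≠ 0 := by
    rw [Ne, CharP.cast_eq_zero_iff k p]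
    intro hdvd
    have h0 : F (zp p) = 1 := by
      rw [← ha.2]
      exact ((zp_spec p).pow_eq_one_iff_dvd a).2 hdvd
    exact (zp_spec p).ne_one hp.out.one_lt (F.injective (h0.trans (map_one F).symm))
  have h2k : (2 : k) ≠ 0 := by
    rw [← map_ofNat (algebraMap (ZMod p) k) 2]
    exact (_root_.map_ne_zero _).2 (EC.Rep.two_ne_zero_zmod hp2)
  have hz₀0 : fst z ≠ 0 := fun h => by rw [h] at hz₀; simp at hz₀
  obtain ⟨φ, hφ⟩ := exists_dual_eq_one (p := p) (e := -2 * fst z * snd z * κ) (mul_ne_zero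
    (mul_ne_zero (mul_ne_zero (neg_ne_zero.2 h2k) hz₀0) hz1) hκ)
  let c₁ : GQ → ZMod p := fun σ => φ (snd (M σ 0 1))
  have hc₁ : ∀ σ ∈ tame p, c₁ (F * σ * F⁻¹) = a * (c₁ σ + c σ) := fun σ hσ => by
    have h := congrArg φ ((hu' σ hσ).2)
    rw [show -2 * fst z * snd z * (a : k) * κ * algebraMap (ZMod p) k (c σ) =
        ((a : ZMod p) * c σ) • (-2 * fst z * snd z * κ) by
          rw [Algebra.smul_def, map_mul, map_natCast]; ring, map_smul, hφ, smul_eq_mul, mul_one,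
      map_sub, show (a : k) * snd (M σ 0 1) = (a : ZMod p) • snd (M σ 0 1) by
        rw [Algebra.smul_def, map_natCast], map_smul, smul_eq_mul] at h
    show φ _ = _ * (φ _ + _)
    linear_combination h
  -- a radical
  obtain ⟨L, hL, hL'⟩ := ρ.isAdicContinuous 2
  let H : Subgroup GQ := tame p ⊓ L.fixingSubgroup
  have hH : IsTameHom p H c₁ := by
    refine ⟨?_, inf_le_left, fun σ hσ τ hτ => ?_, fun σ hσ => ?_⟩
    · obtain ⟨L₁, hL₁, hle⟩ := (isLevel_fixer (p := p) (rad p)).field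
      refine ⟨inf_le_left.trans (isLevel_fixer _).le, L₁ ⊔ L, inferInstance, le_inf ?_ ?_⟩
      · exact (inf_le_inf_left _
          (IntermediateField.fixingSubgroup_antitone le_sup_left)).trans hle
      · exact inf_le_right.trans (IntermediateField.fixingSubgroup_antitone le_sup_right)
    · have h : M (σ * τ) 0 1 = M σ 0 1 + M τ 0 1 := by
        rw [map_mul, Matrix.mul_apply, Fin.sum_univ_two, (htame σ hσ).1, (htame τ hτ).2.2, one_mul,
          mul_one, add_comm]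
      show φ _ = φ _ + φ _
      rw [h, snd_add, map_add]
    · have h1 : ρ.ρ σ = 1 := LinearMap.ext fun v => by
        have h := hL' σ (fun x hx => (IntermediateField.mem_fixingSubgroup_iff _ _).1 hσ.2 x hx) v
        rw [maximalIdeal_dual_sq, Submodule.bot_smul, Submodule.mem_bot, sub_eq_zero] at h
        exact h
      have h2 : M σ = 1 := by
        show LinearMap.toMatrixAlgEquiv b (ρ.ρ σ) = 1
        rw [h1, map_one]
      show φ _ = 0
      rw [h2]
      simp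
  obtain ⟨α, hα0, hα⟩ := hH.exists_radical
  refine hrad (F⁻¹ α / α) ⟨div_ne_zero ((map_ne_zero _).2 hα0) hα0, fun σ hσ => ?_⟩ ?_
  · have hσ' := conj_mem_tame hF hσ
    have e1 : σ (F⁻¹ α) = zp p ^ (c₁ σ + c σ).val * F⁻¹ α := by
      have hF' : F (zp p ^ (c₁ σ + c σ).val) = zp p ^ (c₁ (F * σ * F⁻¹)).val := by
        rw [map_pow, ← ha.2, ← pow_mul, hc₁ σ hσ, pow_eq_pow_mod _ (zp_spec p).pow_eq_one,
          pow_eq_pow_mod ((a : ZMod p) * _).val (zp_spec p).pow_eq_one]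
        congr 1
        rw [← ZMod.natCast_eq_natCast_iff', Nat.cast_mul]
        simp [ZMod.natCast_val, ZMod.cast_id]
      apply F.injective
      rw [map_mul, hF', show F (σ (F⁻¹ α)) = (F * σ * F⁻¹) α by simp [AlgEquiv.mul_apply],
        hα _ hσ', ← AlgEquiv.mul_apply F, mul_inv_cancel, AlgEquiv.one_apply]
    rw [map_div₀, e1, hα σ hσ, add_comm (c₁ σ), zp_pow_val_add,
      mul_right_comm (zp p ^ (c σ).val), mul_div_assoc]
    field_simp [pow_ne_zero _ ((zp_spec p).ne_zero hp.out.ne_zero)]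
  · rw [nrm_div, nrm_map p ((decG p).inv_mem hF), div_self (nrm_pos p hα0).ne']

/-- **Ordinary deformations of a residual representation not finite at `p` are strict.** -/
theorem tresInput : TresInput := by
  intro W p _ hΔ hp2 hW hns k _ _ _ bb ρ B β hord hdet hβ
  have hB : ∀ σ, fstM (matOf ρ B σ) = wMat bb σ := fun σ => by
    rw [hβ σ, fstM_mul, fstM_add, fstM_one, fstM_epsM, add_zero, one_mul, fstM_inlM]
  obtain ⟨L, ⟨b, rfl⟩, hD, hI⟩ := hord (padicPlace p) (CFT.Local.padicPlace_liesOverPrime p)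
  let b' : Basis (Fin 2) (DualNumber k) ρ.V := b
  have hrepr : ∀ w ∈ DualNumber k ∙ b' 0, b'.repr w 1 = 0 := fun w hw => by
    obtain ⟨e, rfl⟩ := Submodule.mem_span_singleton.1 hw
    simp
  have hlow : ∀ σ ∈ decG p, matOf ρ b' σ 1 0 = 0 := fun σ hσ => by
    show LinearMap.toMatrix b' b' (ρ.ρ σ) 1 0 = 0
    rw [LinearMap.toMatrix_apply]
    exact hrepr _ (hD σ hσ _ (Submodule.mem_span_singleton_self _))
  refine isStrictOrdinaryAt_of_sq hdet b' hI fun σ hσ =>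
    ⟨hlow σ hσ, sq_lower_eq_one hp2 hW hns bb B b' hB hdet hlow (fun τ hτ => ?_) hσ⟩
  show LinearMap.toMatrix b' b' (ρ.ρ τ) 1 1 = 1
  rw [LinearMap.toMatrix_apply]
  have h := hrepr _ (hI τ hτ (b' 1))
  rw [map_sub, Finsupp.sub_apply, sub_eq_zero] at h
  rw [h, Basis.repr_self, Finsupp.single_eq_same]

/-- **Level lowering at the scalar primes.** -/
theorem scalarInput : ScalarInput := scalarInput_of tresInput

end Fermat.Agent.RT.Lift59.Scalar

end
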