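import Fermat.Agent.RT.Lift59.Scalar.OrdinaryBase
import Fermat.Agent.RT.Glue.Transfer
import Fermat.Agent.OrdinaryAtP.Reduction
import Fermat.Agent.OrdinaryAtP.Conn.Main
import Fermat.Agent.FiniteFlat.TorsionOrder
import Fermat.Agent.GaloisReps.Unconditional

/-!
# Ordinarity at `p` of the glued representation

When no diamond operator moves `p`, every point lives at a level dividing `p` times a fixed number
prime to `p`, so the geometric statement at one such level applies to the whole Hecke algebra.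
-/

set_option autoImplicit false
set_option linter.style.haveILetI false

noncomputable section

namespace Fermat.Agent.RT.Lift59.Scalar

open IsLocalRing Module Polynomial
open Fermat.Agent.RT.Glue (Point Glued sA diaA eq_zero_of_forall_point KBar)
open GaloisReps (AbsGal HeckeGaloisModel)

theorem dvd_prime_mul_ordCompl {p M n : ℕ} (hp : p.Prime) (_hn : n ≠ 0) (hM : M ∣ n)
    (h : ¬ p ^ 2 ∣ M) : M ∣ p * (ordCompl[p] n) := by
  have hM0 : M ≠ 0 := fun h0 => h (h0 ▸ dvd_zero _)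
  conv_lhs => rw [← Nat.ordProj_mul_ordCompl_eq_self M p]
  refine mul_dvd_mul ?_ (Nat.ordCompl_dvd_ordCompl_of_dvd hM p)
  refine (pow_dvd_pow p ?_).trans (pow_one p).dvd
  by_contra hlt
  exact h ((hp.pow_dvd_iff_le_factorization hM0).2 (by omega))

variable {O : Type} [CommRing O] [IsDomain O] [IsDiscreteValuationRing O]
  [IsAdicComplete (maximalIdeal O) O] [Finite (ResidueField O)] [CharZero O]
  {p : ℕ} [Fact p.Prime]
  {L : ℕ} [NeZero L] {Δ : Type} [CommGroup Δ] [Finite Δ] {ψ : (ZMod L)ˣ →* Δ} {S : Finset ℕ}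
  {abar : ℕ → ResidueField O}
  {H : HeckeModule L ψ S abar} {hS : ∀ q : ℕ, q.Prime → q ∣ L → q ∈ S}

omit [IsAdicComplete (maximalIdeal O) O] [Finite (ResidueField O)] [CharZero O] [NeZero L] in
/-- The Hecke algebra of a level divisible by all the levels of the points maps to the algebra. -/
theorem exists_heckeHom
    (pt : ∀ θ : H.algebra →ₐ[O] KBar O, Point (p := p) H hS θ.toRingHom) {N : ℕ} [NeZero N]
    (hN : ∀ θ, (pt θ).M ∣ N) :
    ∃ π : CuspForm.heckeAlgebra N 2 (↑(S ∪ N.primeFactors) : Set ℕ) →+* H.algebra,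
      ∀ (ℓ : ℕ) (hℓ : ℓ.Prime) (hℓN : ¬ ℓ ∣ N) (hℓS : ℓ ∉ (↑(S ∪ N.primeFactors) : Set ℕ)),
        π (CuspForm.heckeAlgebra.T hℓ hℓN hℓS) =
          sA H hS hℓ (fun h => hℓS (Finset.mem_coe.2 (Finset.mem_union_left _ h))) := by
  classical
  set S' : Finset ℕ := S ∪ N.primeFactors
  have hNS : ∀ q : ℕ, q.Prime → q ∣ N → q ∈ S' := fun q hq hqN =>
    Finset.mem_union_right _ (Nat.mem_primeFactors.2 ⟨hq, hqN, NeZero.ne N⟩)
  have hloc : ∀ θ : H.algebra →ₐ[O] KBar O,
      ∃ f : CuspForm.heckeAlgebra N 2 (↑S' : Set ℕ) →+* KBar O,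
        ∀ (ℓ : ℕ) (hℓ : ℓ.Prime) (hℓN : ¬ ℓ ∣ N) (hℓS : ℓ ∉ (↑S' : Set ℕ)),
          f (CuspForm.heckeAlgebra.T hℓ hℓN hℓS) =
            θ (sA H hS hℓ (fun h => hℓS (Finset.mem_coe.2 (Finset.mem_union_left _ h)))) := by
    intro θ
    obtain ⟨r, -, hr⟩ := OrdinaryAtP.exists_restrictHom (M := N) (R := (pt θ).M) (hN θ)
      (Finset.coe_subset.2 (Finset.empty_subset S')) hNS
    let ι₀ := (Subalgebra.inclusion
      (CuspForm.heckeAlgebra_mono (N := (pt θ).M) (k := 2) (S := (∅ : Set ℕ))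
        (S' := ↑(∅ : Finset ℕ)) (by simp))).toRingHom
    refine ⟨((pt θ).j.comp (pt θ).θ').comp (ι₀.comp r), fun ℓ hℓ hℓN hℓS => ?_⟩
    rw [RingHom.comp_apply, RingHom.comp_apply, RingHom.comp_apply, hr ℓ hℓ hℓN hℓS]
    have h := (pt θ).value hℓ (fun h => hℓS (Finset.mem_coe.2 (Finset.mem_union_left _ h)))
    rw [HeckeDuality.heckeOp, dif_neg fun h => hℓN (h.trans (hN θ))] at h
    exact h
  choose f hf using hloc
  have hex : ∀ t, ∃ x : H.algebra, ∀ θ, θ x = f θ t := by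
    rintro ⟨t, ht⟩
    induction ht using Algebra.adjoin_induction with
    | mem x hx =>
      rcases hx with ⟨ℓ, hℓ, hℓN, hℓS, rfl⟩ | ⟨q, hqN, hq, hqS, rfl⟩
      · exact ⟨_, fun θ => (hf θ ℓ hℓ hℓN hℓS).symm⟩
      · exact absurd (Finset.mem_coe.2 (hNS q hq hqN)) hqS
    | algebraMap c =>
      refine ⟨(c : H.algebra), fun θ => ?_⟩
      rw [map_intCast]
      exact (map_intCast (f θ) c).symm
    | add x y _ _ hx hy =>
      obtain ⟨a, ha⟩ := hx
      obtain ⟨b, hb⟩ := hy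
      exact ⟨a + b, fun θ => by rw [map_add, ha, hb, ← map_add]; rfl⟩
    | mul x y _ _ hx hy =>
      obtain ⟨a, ha⟩ := hx
      obtain ⟨b, hb⟩ := hy
      exact ⟨a * b, fun θ => by rw [map_mul, ha, hb, ← map_mul]; rfl⟩
  choose g hg using hex
  have huniq : ∀ {x y : H.algebra}, (∀ θ : H.algebra →ₐ[O] KBar O, θ x = θ y) → x = y :=
    fun h => sub_eq_zero.1 (eq_zero_of_forall_point fun θ => by rw [map_sub, h, sub_self])
  refine ⟨
    { toFun := g
      map_one' := huniq fun θ => by rw [hg, map_one, map_one]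
      map_mul' := fun a b => huniq fun θ => by rw [map_mul θ, hg, hg, hg, map_mul]
      map_zero' := huniq fun θ => by rw [hg, map_zero, map_zero]
      map_add' := fun a b => huniq fun θ => by rw [map_add θ, hg, hg, hg, map_add] },
    fun ℓ hℓ hℓN hℓS => huniq fun θ => ?_⟩
  show θ (g _) = _
  rw [hg, hf θ ℓ hℓ hℓN hℓS]

variable [IsLocalRing H.algebra] {D : ∀ (M : ℕ) [NeZero M], HeckeGaloisModel M p}
  {pt : ∀ θ : H.algebra →ₐ[O] KBar O, Point (p := p) H hS θ.toRingHom} (G : Glued D pt)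

set_option maxHeartbeats 800000 in
omit [Finite (ResidueField O)] [CharZero O] in
/-- **Ordinarity at `p` of the glued representation.** -/
theorem isOrdinaryAt_glued [IsLocalHom (algebraMap O H.algebra)] (hp : (p : O) ∈ maximalIdeal O)
    (hΔ : IsPGroup p Δ) (hp2 : p ≠ 2) (hpS : p ∈ S)
    (hψp : p ∣ L → ∀ u : (ZMod L)ˣ, ((u : ZMod L).cast : ZMod (L / p)) = 1 → ψ u = 1)
    {ρbar : ResidualGaloisRep (ResidueField O)}
    (hres : G.rep.residual.IsEquiv
      (ρbar.baseChangeAlong (ResidueField.map (algebraMap O H.algebra))))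
    (hord : (GaloisRepAdic.ofResidualGaloisRep ρbar).IsOrdinaryAt p) :
    G.rep.IsOrdinaryAt p := by
  classical
  have hpp : p.Prime := Fact.out
  set K : ℕ := ordCompl[p] (L ^ 2)
  have hL2 : L ^ 2 ≠ 0 := pow_ne_zero 2 (NeZero.ne L)
  have hK : K ≠ 0 := (Nat.ordCompl_pos p hL2).ne'
  haveI : NeZero (4 * K) := ⟨mul_ne_zero (by norm_num) hK⟩
  haveI : NeZero (p * (4 * K)) := ⟨mul_ne_zero hpp.ne_zero (NeZero.ne _)⟩
  have hp4 : ¬ p ∣ 4 * K := fun h => (hpp.dvd_mul.1 h).elim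
    (fun h4 => hp2 ((Nat.prime_dvd_prime_iff_eq hpp Nat.prime_two).1
      (hpp.dvd_of_dvd_pow (show p ∣ 2 ^ 2 from h4))))
    (Nat.not_dvd_ordCompl hpp hL2)
  have hM : ∀ θ, (pt θ).M ∣ p * (4 * K) := fun θ => by
    refine (dvd_prime_mul_ordCompl hpp hL2 (pt θ).dvd fun h => ?_).trans
      (mul_dvd_mul_left p (dvd_mul_left _ 4))
    by_cases hpL : p ∣ L
    · obtain ⟨u, hu, hne⟩ := ((pt θ).sq_dvd p hpp hpL).1 h
      refine hne ?_
      rw [hψp hpL u hu, map_one, map_one]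
    · exact hpL (hpp.dvd_of_dvd_pow ((dvd_pow_self p two_ne_zero).trans (h.trans (pt θ).dvd)))
  obtain ⟨π, hπ⟩ := exists_heckeHom pt hM
  have := Glue.isAdicComplete_algebra H
  haveI : Module.Finite O H.algebra :=
    Module.Finite.of_injective H.algebra.val.toLinearMap Subtype.val_injective
  have := IsNoetherianRing.of_finite O H.algebra
  refine OrdinaryAtP.isOrdinaryAt_of_noHom
    (GaloisReps.modelOfCongruence (GaloisReps.congruenceProperty (p * (4 * K)) p)) G.rep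
    (Glue.isAbsolutelyIrreducible_of_trace_commutator G.rep G.exists_trace_commutator) hp2 (Glue.natCast_mem hp hΔ) π
    (fun ℓ hℓ hℓN hℓS A hA σ hσ => by
      rw [G.charpoly_frobenius hpS hℓ
        (fun h => hℓS (Finset.mem_coe.2 (Finset.mem_union_left _ h))) hA hσ, hπ ℓ hℓ hℓN hℓS])
    ?_ fun P hP => OrdinaryAtP.levelNoHom_of_noTrivialQuotient _
      (OrdinaryAtP.Conn.noTrivialQuotient hP hp2 hp4 (FiniteFlat.orderProperty (4 * K)))
  obtain ⟨e⟩ := hres
  refine isOrdinaryAt_residual_of_isEquiv ⟨e.symm⟩ ?_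
  letI := (ResidueField.map (algebraMap O H.algebra)).toAlgebra
  exact isOrdinaryAt_residual_baseChange hord

end Fermat.Agent.RT.Lift59.Scalar

end
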