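import Fermat.Agent.RT.Lift59.Mazur.Forms
import Fermat.Agent.RT.Lift59.Mazur.Special
import Fermat.Agent.RT.Lift59.Mazur.AuxPrime
import Fermat.Agent.RT.Patch.Auxiliary

/-!
# Auxiliary levels of a semistable model: congruent forms and ranks
-/

set_option autoImplicit false
set_option linter.style.haveILetI false
set_option linter.unusedSectionVars false

noncomputable section

open WeierstrassCurve WeierstrassCurve.Affine WeierstrassCurve.Affine.Point Polynomial
open CongruenceSubgroup ModularFormClass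
open scoped WeierstrassCurve.Affine TensorProduct

namespace Fermat.Agent.RT.Lift59.Scalar

open Fermat.Agent.Deform Fermat.Agent.RT.Assembly Fermat.Agent.Arith Fermat.Agent.RT.GammaH
open IsLocalRing Module

variable {W : WeierstrassCurve ℤ} {p : ℕ} [Fact p.Prime] {hΔ : W.Δ ≠ 0}
  {O : Type} [CommRing O] [IsDomain O] [IsDiscreteValuationRing O]
  [IsAdicComplete (maximalIdeal O) O] [Finite (ResidueField O)]
  [CharZero O] [Algebra (ZMod p) (ResidueField O)]

/-- The sets of bad primes. -/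
def badSet (W : WeierstrassCurve ℤ) (p L : ℕ) : Finset ℕ :=
  insert p (L.primeFactors ∪ W.Δ.natAbs.primeFactors)

theorem mem_badSet_of_dvd {L v : ℕ} (hL : L ≠ 0) (hv : v.Prime) (h : v ∣ L) : v ∈ badSet W p L :=
  Finset.mem_insert_of_mem (Finset.mem_union_left _ (Nat.mem_primeFactors.2 ⟨hv, h, hL⟩))

theorem p_mem_badSet (L : ℕ) : p ∈ badSet W p L := Finset.mem_insert_self _ _

theorem isGoodPrimeFor_of_notMem (hΔ : W.Δ ≠ 0) {L ℓ : ℕ} (hℓ : ℓ.Prime) (h : ℓ ∉ badSet W p L) :
    W.IsGoodPrimeFor ℓ := fun hd => h (Finset.mem_insert_of_mem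
  (Finset.mem_union_right _ (Nat.mem_primeFactors.2 ⟨hℓ, Int.natCast_dvd.mp hd,
    Int.natAbs_ne_zero.mpr hΔ⟩)))

theorem hasCharpolys (L : ℕ) :
    Glue.HasCharpolys (badSet W p L) (wAbar W (ResidueField O))
      (wRho W p hΔ (ResidueField O)) := fun _ hℓ hℓS _ hA _ hs =>
  charpoly_wRho_frobenius hℓ (isGoodPrimeFor_of_notMem hΔ hℓ hℓS)
    (fun h => hℓS (h ▸ p_mem_badSet _)) hA hs

theorem isCongruentLevel_badSet (hΔ : W.Δ ≠ 0) {N L : ℕ} (hL0 : L ≠ 0) (hNL : N ∣ L)
    (hmod : W.IsResiduallyModularOfLevel p N) :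
    IsCongruentLevel (badSet W p L) (wAbar W (ResidueField O)) N :=
  isCongruentLevel_of_isResiduallyModularOfLevel (fun ℓ hℓ h => by
    rcases h with rfl | h | h
    · exact p_mem_badSet L
    · exact mem_badSet_of_dvd hL0 hℓ (h.trans hNL)
    · exact Finset.mem_insert_of_mem (Finset.mem_union_right _ (Nat.mem_primeFactors.2
        ⟨hℓ, Int.natCast_dvd.mp h, Int.natAbs_ne_zero.mpr hΔ⟩))) hmod

variable (bb : Basis (Fin 2) (ResidueField O) (wRho W p hΔ (ResidueField O)).V)

/-- At an auxiliary prime no congruent newform is new. -/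
theorem notNewAt {L L₀ q : ℕ} (hL : Squarefree L) (hq : q.Prime) (hqp : q ≠ p)
    (hq1 : (q : ResidueField O) = 1)
    (hreg : ∀ A : ValuationSubring QBar, A.LiesOverPrime q → ∀ F : Gal, A.IsFrobeniusAt F q →
      ∃ α β : ResidueField O, α ≠ β ∧ (wMat bb F).charpoly = (X - C α) * (X - C β))
    {S : Finset ℕ} (hS : badSet W p L₀ ⊆ S) :
    Lift.NotNewAt S (wAbar W (ResidueField O)) L q := by
  intro M g hML hqM hg hcong
  have : NeZero M := ⟨fun h => hL.ne_zero (Nat.eq_zero_of_zero_dvd (h ▸ hML))⟩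
  have : CharP (ResidueField O) p :=
    charP_of_injective_algebraMap (algebraMap (ZMod p) (ResidueField O)).injective p
  obtain ⟨A, hA⟩ := exists_liesOverPrime hq
  obtain ⟨F, hF⟩ := exists_isFrobeniusAt hA hq
  have hq2 : ¬ q ^ 2 ∣ M := fun h => hq.not_isUnit (hL q (by
    rw [← sq]; exact h.trans hML))
  have key := MazurQ.trace_sq_of_special (wRho W p hΔ (ResidueField O))
    (fun l hl hlS B hB τ hτ => hasCharpolys (hΔ := hΔ) L₀ l hl (fun h => hlS (hS h)) B hB τ hτ)
    hg hcong hq hqp hqM hq2 hA hF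
  obtain ⟨α, β, hne, hch⟩ := hreg A hA F hF
  have h1 : (wMat bb F).trace = α + β := by
    rw [Matrix.charpoly_fin_two] at hch
    have e := congrArg (fun f => Polynomial.coeff f 1) hch
    simp [mul_sub, sub_mul, coeff_X, coeff_C, coeff_X_pow] at e
    linear_combination -e
  have h0 : α * β = 1 := by
    rw [Matrix.charpoly_fin_two] at hch
    have e := congrArg (fun f => Polynomial.eval 0 f) hch
    simp at e
    rw [← e, det_wMat bb F q fun μ hμ => GaloisReps.frobenius_apply_root hA hq hF hμ fun h =>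
      hqp ((Nat.prime_dvd_prime_iff_eq hq Fact.out).1 h), hq1]
  rw [← trace_wMat_apply bb, h1, hq1] at key
  refine hne (sub_eq_zero.1 (sq_eq_zero_iff.1 ?_))
  linear_combination key - 4 * h0

/-- Modularity below from a congruent level with no prime of `T` new. -/
theorem isResiduallyModularOfLevel_of_congruent_level (hΔ : W.Δ ≠ 0) {N T M : ℕ}
    (hL : Squarefree (N * T)) (hM : M ∣ N * T)
    (hnew : ∀ (S : Finset ℕ) (t : ℕ), badSet W p (N * T) ⊆ S → t.Prime → t ∣ T →
      Lift.NotNewAt S (wAbar W (ResidueField O)) (N * T) t)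
    (h : IsCongruentLevel (badSet W p (N * T)) (wAbar W (ResidueField O)) M) {N' : ℕ}
    (hN' : N' ∣ N) (hM' : ∀ t : ℕ, t.Prime → t ∣ M → t ∣ N → t ∣ N') :
    W.IsResiduallyModularOfLevel p N' := by
  classical
  have hM0 : M ≠ 0 := fun h0 => hL.ne_zero (Nat.eq_zero_of_zero_dvd (h0 ▸ hM))
  obtain ⟨M', hM'M, g, hg, hgc⟩ := exists_congruent_newform_wAbar hM0 h
  have hN'sq : Squarefree N' := hL.squarefree_of_dvd (hN'.trans (dvd_mul_right N T))
  have hM'N : M' ∣ N' := by
    have hsq : Squarefree M' := hL.squarefree_of_dvd (hM'M.trans hM)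
    refine (Nat.prod_primeFactors_of_squarefree hsq).symm.dvd.trans ?_
    refine (Finset.prod_dvd_prod_of_subset _ N'.primeFactors id fun t ht => ?_).trans
      (Nat.prod_primeFactors_dvd N')
    have htp := Nat.prime_of_mem_primeFactors ht
    have htM := Nat.dvd_of_mem_primeFactors ht
    refine Nat.mem_primeFactors.2 ⟨htp, ?_, hN'sq.ne_zero⟩
    rcases htp.dvd_mul.1 ((htM.trans hM'M).trans hM) with h1 | h1
    · exact hM' t htp (htM.trans hM'M) h1
    · exact (hnew _ t Finset.subset_union_left htp h1 M' g (hM'M.trans hM) htM hg hgc).elim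
  obtain ⟨G, hG⟩ := Patch.isCongruentLevel_of_dvd hN'sq hM'N
    (S := badSet W p (N * T) ∪ M.primeFactors)
    (fun v hv hd => Finset.mem_union_left _
      (mem_badSet_of_dvd hL.ne_zero hv (hd.trans (hN'.trans (dvd_mul_right N T)))))
    ⟨g, hgc⟩
  exact isResiduallyModularOfLevel_of_congruent hΔ hN'sq.ne_zero hG

theorem finrank_le_rankBound {N T : ℕ} [NeZero N] [NeZero (N * T)] (hL : Squarefree (N * T))
    {R : ℕ} (hR : T.primeFactors.card ≤ R) {S : Finset ℕ}
    (hS : ∀ v : ℕ, v.Prime → v ∣ N * T → v ∈ S)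
    (hEis : ∃ ℓ : ℕ, ℓ.Prime ∧ ℓ ∉ S ∧
      wAbar W (ResidueField O) ℓ ≠ 1 + (ℓ : ResidueField O))
    (hnew : ∀ t : ℕ, t.Prime → t ∣ T → Lift.NotNewAt S (wAbar W (ResidueField O)) (N * T) t)
    {e : OpRing O (N * T) S}
    (he : IsLocalizer (resIdeal S (wAbar W (ResidueField O)) (N * T))
      (HomMod O S (⊤ : Subgroup (ZMod (N * T))ˣ) O) e) :
    Module.finrank O (localPart O e (HomMod O S (⊤ : Subgroup (ZMod (N * T))ˣ) O)) ≤
      Patch.rankBound O N R := by
  obtain ⟨e₀, he₀⟩ := exists_isLocalizer (O := O) (resIdeal S (wAbar W (ResidueField O)) N)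
    (HomMod O S (⊤ : Subgroup (ZMod N)ˣ) O)
  refine (Lift.finrank_le_pow (N := N) (N * T) (dvd_mul_right N T) hL hS hEis
    (fun t ht htL htN => hnew t ht ((ht.dvd_mul.1 htL).resolve_left htN)) he he₀).trans ?_
  rw [Nat.mul_div_cancel_left _ (NeZero.pos N)]
  exact Nat.mul_le_mul (Nat.pow_le_pow_right two_pos hR) (Submodule.finrank_le _)

/-- A prime `2 mod 3` outside a given set with nonzero residual trace. -/
theorem exists_three_prime (hp2 : p ≠ 2) (hΔ : W.Δ ≠ 0) (hW : W.IsSemistableModel)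
    (hirr : W.ModRepIsIrreducible p) (S : Finset ℕ) :
    5 ≤ p ∨ ∃ r : ℕ, r.Prime ∧ r % 3 = 2 ∧ r ∉ S ∧ wAbar W (ResidueField O) r ≠ 0 := by
  obtain ⟨r, hr, hrS, -, hr3, -, ha⟩ := MazurQ.exists_aux_prime hp2 hΔ hW hirr S
  refine Or.inr ⟨r, hr, hr3, hrS, ?_⟩
  rw [wAbar, ← map_intCast (algebraMap (ZMod p) (ResidueField O))]
  exact (_root_.map_ne_zero _).2 ha

end Fermat.Agent.RT.Lift59.Scalar

end
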