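import Fermat.Agent.CFT.Flat.Kummer
import Fermat.Agent.RT.Lift59.Galois.TresRamified

/-!
# Inertia at `p` on `E[p]` has no unit radical when `p ∤ v(Δ)`

A radical differs from a Kummer element of the extension by a constant of the tame field, so a
unit radical makes the order of the Kummer element integral.
-/

set_option autoImplicit false
set_option linter.style.haveILetI false

open scoped WeierstrassCurve.Affine Pointwise
open WeierstrassCurve WeierstrassCurve.Affine Fermat.Agent.Arith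

noncomputable section

namespace Fermat.Agent.RT.Lift59.Scalar

open Fermat.Agent.EC.Rep Fermat.Agent.CFT.Flat Fermat.Agent.RT.MazurP
open Fermat.Agent.RT.Lift59.Galois (exists_frame_kummer dvd_padicValInt_of_kummer)

variable {W : WeierstrassCurve ℤ} {p : ℕ} [hp : Fact p.Prime]

theorem valuation_eq_one_iff_nrm {a : QBar} :
    (padicPlace p).valuation a = 1 ↔ nrm p a = 1 := by
  rw [le_antisymm_iff, le_antisymm_iff, ValuationSubring.valuation_le_one_iff, mem_place_iff]
  refine and_congr_right fun _ => ?_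
  rcases eq_or_ne a 0 with rfl | ha
  · simp [nrm_zero]
  rw [← inv_le_one₀ (zero_lt_iff.2 ((Valuation.ne_zero_iff _).2 ha)), ← map_inv₀,
    ValuationSubring.valuation_le_one_iff, mem_place_iff, nrm_inv,
    inv_le_one₀ (nrm_pos p ha)]

theorem mem_tameKer_of_mem_tame {g : GQ} (hg : g ∈ tame p) :
    g ∈ tameKer (padicPlace p) p := by
  refine mem_tameKer.2 ⟨((mem_tame p).1 hg).1, Units.ext ?_⟩
  have h := cyclotomicHom_spec (n := p) g (zp_spec p).pow_eq_one
  rw [tame_fixes_zeta p (zp_spec p) hg] at h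
  have h1 : (zp p) ^ 1 = zp p ^ (cyclotomicHom p g : ZMod p).val := by rw [pow_one]; exact h
  refine (ZMod.val_injective p) ?_
  rw [← (zp_spec p).pow_inj hp.out.one_lt (ZMod.val_lt _) h1, Units.val_one, ZMod.val_one]

/-- **The homomorphism of inertia on a frame has no unit radical.** -/
theorem false_of_frame_unit_radical (hp2 : p ≠ 2) (hΔ0 : W.Δ ≠ 0) (hΔ : (p : ℤ) ∣ W.Δ)
    (hc₄ : ¬ (p : ℤ) ∣ W.c₄) (hns : ¬ p ∣ padicValInt p W.Δ)
    (F : Frame (padicPlace p) W p) {c : GQ → ZMod p}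
    (hc : ∀ g ∈ tame p, g • F.S = F.S + ((c g).val : ℤ) • F.R)
    {α : QBar} (hα : IsEigen p c α) (hα1 : nrm p α = 1) : False := by
  have hA := CFT.Local.padicPlace_liesOverPrime p
  have hz := zp_spec p
  obtain ⟨u, hu0, hu⟩ := exists_frame_kummer F hΔ0 hz
  have hup : ∀ σ ∈ (padicPlace p).inertiaSubgroupIn ℚ, σ (u ^ p) = u ^ p := fun σ hσ => by
    obtain ⟨b, hb⟩ := F.smul_S σ hσ
    rw [map_pow, hu σ hσ b hb, mul_pow, ← zpow_natCast, ← zpow_mul,
      (hz.zpow_eq_one_iff_dvd _).mpr (dvd_mul_left _ _), one_mul]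
  obtain ⟨k, hk⟩ := exists_zpow_of_inertiaFixed hA hp.out (pow_ne_zero p hu0) hup
  refine hns (dvd_padicValInt_of_kummer hA hp2 hΔ0 hΔ hc₄ F hz hu0 hu hk ?_)
  obtain ⟨j, hj⟩ := (isUnif_rad p).exists_zpow (div_ne_zero hu0 hα.1) fun g hg => by
    rw [map_div₀, hu g ((mem_tame p).1 hg).1 _ (hc g hg), hα.2 g hg, zpow_natCast,
      mul_div_mul_left _ _ (pow_ne_zero _ (hz.ne_zero hp.out.ne_zero))]
  rw [nrm_div, hα1, div_one] at hj
  have hk' : nrm p u ^ p = ((p : ℝ)⁻¹) ^ k := by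
    have h1 : (padicPlace p).valuation (u ^ p * (p : QBar) ^ (-k)) = 1 := by
      rw [map_mul, hk, map_zpow₀, zpow_neg, mul_inv_cancel₀ (zpow_ne_zero _
        ((Valuation.ne_zero_iff _).2 (Nat.cast_ne_zero.2 hp.out.ne_zero)))]
    rw [valuation_eq_one_iff_nrm, nrm_mul, nrm_pow, zpow_neg, nrm_inv] at h1
    rw [← eq_inv_of_mul_eq_one_left (a := nrm p u ^ p) h1 |>.trans (inv_inv _) |>.symm]
    rw [show nrm p ((p : QBar) ^ k) = nrm p (p : QBar) ^ k by simp [nrm, map_zpow₀, norm_zpow],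
      nrm_natCast_self]
  rw [hj, ← nrm_rad_pow, ← zpow_natCast, ← zpow_natCast (nrm p (rad p)) (e₀ p), ← zpow_mul,
    ← zpow_mul] at hk'
  have h := zpow_right_injective₀ (isUnif_rad p).pos (isUnif_rad p).lt_one.ne hk'
  exact ((Nat.prime_iff_prime_int.mp hp.out).dvd_or_dvd ⟨j, by rw [← h, mul_comm]⟩).resolve_left
    fun hd => not_dvd_e₀ p (Int.natCast_dvd_natCast.mp hd)

end Fermat.Agent.RT.Lift59.Scalar

end
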