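import Fermat.Agent.RT.Lift59.Galois.OrdDescend

/-!
# Ordinarity descends to the algebra of entries

An inertia element inverting the roots of unity has determinant `-1` modulo `p`, so its difference
with the identity has a column spanning the line of an ordinary representation.
-/

set_option autoImplicit false
set_option linter.style.haveILetI false
set_option linter.unusedSectionVars false

noncomputable section

namespace Fermat.Agent.RT.Lift59.Scalar

open IsLocalRing Fermat.Agent.Deform Fermat.Agent.Arith Fermat.Agent.RT.Assembly Module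
open Fermat.Agent.RT.Lift59.Galois
open scoped Matrix

variable {O : Type} [CommRing O] [IsDomain O] [IsDiscreteValuationRing O]
  [IsAdicComplete (maximalIdeal O) O]
  {A : Type} [CommRing A] [IsLocalRing A] [Algebra O A] [Module.Finite O A]
  {p : ℕ} [hp : Fact p.Prime]

/-- **Ordinarity descends to a subalgebra containing the entries.** -/
theorem isOrdinaryAt_corestrict (hA : IsResAlg O A) (hp2 : p ≠ 2)
    (hpO : (p : O) ∈ maximalIdeal O) (S : Subalgebra O A) [IsLocalRing S] {r : Gal →* M2 A}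
    (hS : ∀ σ i j, r σ i j ∈ S) {hc : IsCont r}
    (hdet : ∀ (n : ℕ) (σ : Gal) (a : ℕ), (∀ μ : QBar, μ ^ p ^ n = 1 → σ μ = μ ^ a) →
      (r σ).det - a ∈ Ideal.span {(p : A) ^ n})
    (hord : (toRep r hc).IsOrdinaryAt p) (hc' : IsCont (corestrict S r hS)) :
    (toRep (corestrict S r hS) hc').IsOrdinaryAt p := by
  haveI := finite_subalgebra S
  haveI := isLocalHom_subalgebra_val S
  have hpA : (p : A) ∈ maximalIdeal A := natCast_mem_maximalIdeal hA hpO
  intro P hP
  obtain ⟨L₀, ⟨e, he⟩, hD₀, hI₀⟩ := hord P hP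
  subst he
  let e' : Basis (Fin 2) A (Fin 2 → A) := e
  obtain ⟨L, he'⟩ : ∃ L : Submodule A (Fin 2 → A), L = A ∙ e' 0 := ⟨_, rfl⟩
  have hD : ∀ σ ∈ P.decompositionSubgroup ℚ, ∀ v ∈ L, r σ *ᵥ v ∈ L := by
    rw [he']; exact hD₀
  have hI : ∀ σ ∈ P.inertiaSubgroupIn ℚ, ∀ v : Fin 2 → A, r σ *ᵥ v - v ∈ L := by
    rw [he']; exact hI₀
  clear hD₀ hI₀
  clear_value e'
  have hL0 : e' 0 ∈ L := he' ▸ Submodule.mem_span_singleton_self _
  obtain ⟨τ, hτ, hτinv⟩ := Mazur.Eisenstein.exists_inertia_inv hP hp.out 1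
  obtain ⟨x, hx⟩ : ∃ x : A, x • e' 0 = r τ *ᵥ e' 0 := Submodule.mem_span_singleton.1
    (he' ▸ hD τ (Subgroup.map_subtype_le _ hτ) _ hL0)
  obtain ⟨y, hy⟩ : ∃ y : A, y • e' 0 = r τ *ᵥ e' 1 - e' 1 :=
    Submodule.mem_span_singleton.1 (he' ▸ hI τ hτ (e' 1))
  have hxdet : (r τ).det = x := by
    have h0 : Matrix.toLin' (r τ) (e' 0) = x • e' 0 := by rw [Matrix.toLin'_apply, hx]
    have h1 : Matrix.toLin' (r τ) (e' 1) = y • e' 0 + e' 1 := by
      rw [Matrix.toLin'_apply, hy, sub_add_cancel]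
    rw [← LinearMap.det_toLin', ← LinearMap.det_toMatrix e', Matrix.det_fin_two]
    simp [LinearMap.toMatrix_apply, h0, h1]
  have hxu : IsUnit (x - 1) := by
    have hx1 : (r τ).det - ((p - 1 : ℕ) : A) ∈ Ideal.span {(p : A) ^ 1} := hdet 1 τ (p - 1)
      fun μ hμ => by
        rw [hτinv μ hμ]
        rw [pow_one] at hμ
        refine inv_eq_of_mul_eq_one_left ?_
        rw [← pow_succ, Nat.sub_add_cancel hp.out.one_le, hμ]
    rw [hxdet, pow_one, Nat.cast_sub hp.out.one_le, Nat.cast_one] at hx1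
    by_contra hnu
    have h1 : x - 1 ∈ maximalIdeal A := hnu
    have h2 : x - ((p : A) - 1) ∈ maximalIdeal A :=
      (Ideal.span_singleton_le_iff_mem _).2 hpA hx1
    have h3 : (2 : A) ∈ maximalIdeal A := by
      have := add_mem (sub_mem h2 h1) hpA
      rwa [show x - ((p : A) - 1) - (x - 1) + p = 2 by ring] at this
    obtain ⟨a, b, hab⟩ : IsCoprime (2 : A) (p : A) := by
      have := (Nat.isCoprime_iff_coprime.2
        ((Nat.coprime_primes Nat.prime_two hp.out).2 (Ne.symm hp2))).map (Int.castRingHom A)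
      simpa using this
    exact (maximalIdeal.isMaximal A).ne_top ((Ideal.eq_top_iff_one _).2
      (hab ▸ add_mem (Ideal.mul_mem_left _ a h3) (Ideal.mul_mem_left _ b hpA)))
  obtain ⟨i, j, hij, c, hc0, hcol⟩ := exists_unit_column (e := e') (M := r τ - 1)
    (fun v => by rw [← he', Matrix.sub_mulVec, Matrix.one_mulVec]; exact hI τ hτ v) hxu
    (by rw [Matrix.sub_mulVec, Matrix.one_mulVec, sub_smul, one_smul, hx])
  -- the column in the subalgebra
  let w : Fin 2 → S := fun a => (corestrict S r hS τ - 1) a j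
  have hw : (fun a => (w a : A)) = c • e' 0 := by
    rw [← hcol, Matrix.mulVec_single_one]
    funext a
    show ((corestrict S r hS τ a j - (1 : M2 S) a j : S) : A) = r τ a j - (1 : M2 A) a j
    rw [AddSubgroupClass.coe_sub]
    congr 1
    by_cases h : a = j
    · subst h; simp
    · simp [h]
  have hwi : IsUnit (w i) := by
    refine (isUnit_map_iff (S.val : S →+* A) (w i)).1 ?_
    show IsUnit ((fun a => (w a : A)) i)
    rw [hw, ← hcol, Matrix.mulVec_single_one]
    exact hij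
  obtain ⟨wi, hwi'⟩ := hwi
  obtain ⟨b, hb⟩ := exists_basis_of_isUnit (w := w) (i := i) ⟨wi, hwi'⟩
  have hwL : (fun a => (w a : A)) ∈ L := hw ▸ L.smul_mem c hL0
  have hspan : ∀ v : Fin 2 → S, (fun a => (v a : A)) ∈ L → v ∈ S ∙ w := fun v hv => by
    rw [he'] at hv
    obtain ⟨a, ha⟩ := Submodule.mem_span_singleton.1 hv
    obtain ⟨ci, hci⟩ := hc0
    refine Submodule.mem_span_singleton.2 ⟨v i * (wi⁻¹ : Sˣ), funext fun t => Subtype.ext ?_⟩
    have hv' : ∀ t, (v t : A) = a * (↑ci⁻¹ : A) * (w t : A) := fun t => by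
      have e1 : (v t : A) = a * e' 0 t := (congrFun ha t).symm
      have e2 : (w t : A) = (ci : A) * e' 0 t := by rw [hci]; exact congrFun hw t
      rw [e1, e2, mul_assoc a, Units.inv_mul_cancel_left]
    have h1 : ((wi⁻¹ : Sˣ) : S).1 * (w i : A) = 1 := by
      rw [← Subalgebra.coe_mul, ← hwi', Units.inv_mul]; rfl
    rw [Pi.smul_apply, smul_eq_mul, Subalgebra.coe_mul, Subalgebra.coe_mul, hv' i, hv' t,
      mul_assoc (a * _) (w i : A), mul_comm (w i : A), h1, mul_one]
  have hcoe : ∀ σ (v : Fin 2 → S),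
      (fun a => (((toRep (corestrict S r hS) hc').ρ σ v) a : A)) =
        r σ *ᵥ fun a => (v a : A) := fun σ v => coe_mulVec S hS σ v
  have hmemS : ∀ v ∈ S ∙ w, (fun a => (v a : A)) ∈ L := fun v hv => by
    obtain ⟨a, rfl⟩ := Submodule.mem_span_singleton.1 hv
    exact L.smul_mem (a : A) hwL
  refine ⟨S ∙ w, ⟨b, congrArg (fun v : Fin 2 → S => S ∙ v) hb.symm⟩, fun σ hσ v hv => hspan _ ?_,
    fun σ hσ v => hspan _ ?_⟩
  · exact (congrArg (fun u : Fin 2 → A => u ∈ L) (hcoe σ v)).mpr (hD σ hσ _ (hmemS v hv))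
  · have e1 : (fun a => ((((toRep (corestrict S r hS) hc').ρ σ v) - v) a : A)) =
        (fun a => (((toRep (corestrict S r hS) hc').ρ σ v) a : A)) - fun a => (v a : A) := rfl
    exact (congrArg (fun u : Fin 2 → A => u ∈ L)
      (e1.trans (congrArg (· - fun a => (v a : A)) (hcoe σ v)))).mpr (hI σ hσ _)

end Fermat.Agent.RT.Lift59.Scalar

end
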