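import Fermat.Prelude.Def_GaloisRep_LocalConditions
import Fermat.Prelude.Def_GaloisRep_ResidualEquiv

/-!
# Ordinary representations: base change and isomorphism
-/

set_option autoImplicit false
set_option linter.style.haveILetI false

noncomputable section

namespace Fermat.Agent.RT.Lift59.Scalar

open IsLocalRing Module
open scoped TensorProduct

variable {A B V : Type} [CommRing A] [CommRing B] [Algebra A B] [AddCommGroup V] [Module A V]

theorem tmul_mem_line (b : Basis (Fin 2) A V) (c : B) {v : V} (hv : v ∈ A ∙ b 0) :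
    c ⊗ₜ[A] v ∈ B ∙ (b.baseChange B 0) := by
  obtain ⟨a, rfl⟩ := Submodule.mem_span_singleton.1 hv
  refine Submodule.mem_span_singleton.2 ⟨algebraMap A B a * c, ?_⟩
  rw [Basis.baseChange_apply, TensorProduct.smul_tmul', smul_eq_mul, mul_one,
    ← Algebra.smul_def, TensorProduct.smul_tmul]

theorem baseChange_line_stable (b : Basis (Fin 2) A V) {f : V →ₗ[A] V}
    (hf : ∀ v ∈ A ∙ b 0, f v ∈ A ∙ b 0) :
    ∀ v ∈ B ∙ (b.baseChange B 0), f.baseChange B v ∈ B ∙ (b.baseChange B 0) := by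
  intro v hv
  obtain ⟨c, rfl⟩ := Submodule.mem_span_singleton.1 hv
  rw [map_smul]
  refine Submodule.smul_mem _ c ?_
  rw [Basis.baseChange_apply, LinearMap.baseChange_tmul]
  exact (Basis.baseChange_apply B b 0) ▸
    tmul_mem_line b 1 (hf _ (Submodule.mem_span_singleton_self _))

theorem baseChange_line_quot (b : Basis (Fin 2) A V) {f : V →ₗ[A] V}
    (hf : ∀ v, f v - v ∈ A ∙ b 0) :
    ∀ v, f.baseChange B v - v ∈ B ∙ (b.baseChange B 0) := by
  intro v
  induction v using TensorProduct.induction_on with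
  | zero => rw [LinearMap.map_zero, sub_zero]; exact zero_mem _
  | tmul c w =>
    rw [LinearMap.baseChange_tmul, ← TensorProduct.tmul_sub]
    exact tmul_mem_line b c (hf w)
  | add x y hx hy => rw [map_add, add_sub_add_comm]; exact add_mem hx hy

variable [IsLocalRing A] [IsLocalRing B]

omit [Algebra A B] in
/-- Ordinarity is stable under base change. -/
theorem isOrdinaryAt_baseChangeAlong (φ : A →+* B) (hφ : IsLocalHom φ) {ρ : GaloisRepAdic A}
    {p : ℕ} (h : ρ.IsOrdinaryAt p) : (ρ.baseChangeAlong φ hφ).IsOrdinaryAt p := by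
  intro P hP
  letI := φ.toAlgebra
  obtain ⟨L, ⟨b, rfl⟩, hD, hI⟩ := h P hP
  exact ⟨_, ⟨b.baseChange B, rfl⟩, fun σ hσ => baseChange_line_stable b (hD σ hσ),
    fun σ hσ => baseChange_line_quot b (hI σ hσ)⟩

/-- Residual ordinarity is stable under extension of the field. -/
theorem isOrdinaryAt_residual_baseChange {k k' : Type} [Field k] [Field k'] [Algebra k k']
    {ρ : ResidualGaloisRep k} {p : ℕ}
    (h : (GaloisRepAdic.ofResidualGaloisRep ρ).IsOrdinaryAt p) :
    (GaloisRepAdic.ofResidualGaloisRep (ρ.baseChange k')).IsOrdinaryAt p := by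
  intro P hP
  obtain ⟨L, ⟨b, rfl⟩, hD, hI⟩ := h P hP
  let b₀ : Basis (Fin 2) k ρ.V := b
  exact ⟨_, ⟨b₀.baseChange k', rfl⟩, fun σ hσ => baseChange_line_stable b₀ (hD σ hσ),
    fun σ hσ => baseChange_line_quot b₀ (hI σ hσ)⟩

/-- Ordinarity is invariant under isomorphism. -/
theorem isOrdinaryAt_of_isEquiv {ρ₁ ρ₂ : GaloisRepAdic A} {p : ℕ} (he : ρ₁.IsEquiv ρ₂)
    (h : ρ₁.IsOrdinaryAt p) : ρ₂.IsOrdinaryAt p := by
  intro P hP
  obtain ⟨e⟩ := he
  obtain ⟨L, ⟨b, rfl⟩, hD, hI⟩ := h P hP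
  refine ⟨A ∙ b.map e.toLinearEquiv 0, ⟨b.map e.toLinearEquiv, rfl⟩, fun σ hσ v hv => ?_,
    fun σ hσ v => ?_⟩
  · obtain ⟨c, rfl⟩ := Submodule.mem_span_singleton.1 hv
    obtain ⟨a, ha⟩ := Submodule.mem_span_singleton.1
      (hD σ hσ _ (Submodule.mem_span_singleton_self (b 0)))
    rw [map_smul, Basis.map_apply, ← e.map_apply, ← ha, map_smul]
    exact Submodule.smul_mem _ _ (Submodule.smul_mem _ _ (Submodule.mem_span_singleton_self _))
  · obtain ⟨w, rfl⟩ := e.toLinearEquiv.surjective v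
    obtain ⟨a, ha⟩ := Submodule.mem_span_singleton.1 (hI σ hσ w)
    refine Submodule.mem_span_singleton.2 ⟨a, ?_⟩
    rw [← e.map_apply, ← map_sub, ← ha, map_smul, Basis.map_apply]

/-- Residual ordinarity is invariant under isomorphism. -/
theorem isOrdinaryAt_residual_of_isEquiv {k : Type} [Field k] {ρ₁ ρ₂ : ResidualGaloisRep k}
    {p : ℕ} (he : ρ₁.IsEquiv ρ₂) (h : (GaloisRepAdic.ofResidualGaloisRep ρ₁).IsOrdinaryAt p) :
    (GaloisRepAdic.ofResidualGaloisRep ρ₂).IsOrdinaryAt p := by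
  obtain ⟨e⟩ := he
  exact isOrdinaryAt_of_isEquiv (ρ₁ := GaloisRepAdic.ofResidualGaloisRep ρ₁)
    (ρ₂ := GaloisRepAdic.ofResidualGaloisRep ρ₂) ⟨⟨e.toLinearEquiv, e.map_apply⟩⟩ h

end Fermat.Agent.RT.Lift59.Scalar

end
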