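import Fermat.Agent.RT.Patch.Tangent
import Fermat.Agent.RT.Lift59.Scalar.OrdinaryBase
import Fermat.Agent.RT.Lift59.Scalar.OrdDescend
import Fermat.Agent.RT.Lift59.Primes

/-!
# The derivations killing the coordinates at the places of `V`, flat or ordinary at `p`
-/

set_option autoImplicit false
set_option linter.style.haveILetI false

noncomputable section

namespace Fermat.Agent.RT.Lift59.Scalar

open IsLocalRing Module Fermat.Agent.Deform Fermat.Agent.CFT.Tangent Fermat.Agent.Arith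
  Fermat.Agent.RT.Assembly
open Fermat.Agent.RT.Patch (isFiniteLevel_tangentCls tangentDer_natCast detIsCyclotomic_corestrict
  isFlatAt_corestrict)

/-- The first order deformations which are ordinary at `p` with cyclotomic determinant are
strictly ordinary there. -/
def StrictLift {k : Type} [Field k] (p : ℕ) (r : Gal →* M2 k) : Prop :=
  ∀ (ρ : GaloisRepAdic (DualNumber k)) (B : Basis (Fin 2) (DualNumber k) ρ.V) (b : Gal → M2 k),
    ρ.IsOrdinaryAt p → ρ.DetIsCyclotomic p →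
    (∀ σ, matOf ρ B σ = (1 + epsM (b σ)) * inlM (r σ)) → ρ.IsStrictOrdinaryAt p

/-- The bound on classes strict at `V'` for given auxiliary primes. -/
def SpaceBound {k : Type} [Field k] (p : ℕ) [Fact p.Prime] (r : Gal →* M2 k) (Sr V' : Finset ℕ)
    {R : ℕ} (q : Fin R → ℕ) : Prop :=
  ∀ c : AtP, c = .flat ∨ c = .strict → ∀ W : Submodule k (Gal → M2 k), Module.Finite k W →
    IsLiftSpace p r Sr V' ∅ c q W →
    finrank k W + 3 * V'.card ≤ R

variable {O : Type} [CommRing O] [IsDomain O] [IsDiscreteValuationRing O]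
  [IsAdicComplete (maximalIdeal O) O] [Finite (ResidueField O)]
  {A : Type} [CommRing A] [IsLocalRing A] [Algebra O A] [Module.Finite O A]
  {p : ℕ} [Fact p.Prime] [CharP (ResidueField O) p] {W : Rigid O} {V' : Finset ℕ} {R : ℕ}
  {q : Fin R → ℕ}

set_option maxHeartbeats 800000 in
/-- **The tangent bound**, flat or ordinary at `p`. -/
theorem finrank_killedDer_add_le (hA : IsResAlg O A) (hp2 : p ≠ 2) (hp : (p : O) ∈ maximalIdeal O)
    {ru : Gal →* M2 A} (hl : Lifts W hA ru) (hn : IsNormal W ru) (hc : IsCont ru)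
    (hdet : ∀ (n : ℕ) (σ : Gal) (a : ℕ), (∀ μ : QBar, μ ^ p ^ n = 1 → σ μ = μ ^ a) →
      (ru σ).det - a ∈ Ideal.span {(p : A) ^ n})
    (hatP : (toRep ru hc).IsFlatAt p ∨ ((toRep ru hc).IsOrdinaryAt p ∧ StrictLift p W.rb))
    (hrfin : GaloisFactorsThroughFiniteLevel W.rb) {Sr : Finset ℕ}
    (hV : ∀ v ∈ V', v.Prime ∧ v ≠ p)
    (hrb : ∀ v ∈ V', ∀ [Fact v.Prime], ∀ g ∈ (padicPlace v).inertiaSubgroupIn ℚ, W.rb g = 1)
    (σT φT : V' → Gal)
    (hσT : ∀ v : V', haveI : Fact (v : ℕ).Prime := ⟨(hV v v.2).1⟩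
      σT v ∈ (padicPlace (v : ℕ)).inertiaSubgroupIn ℚ ∧ ∃ (π : QBar) (m : ℤ), π ≠ 0 ∧
        Mazur.Eisenstein.ordAt (padicPlace (v : ℕ)) v π = m / p ∧
        EC.Reduction.res (padicPlace (v : ℕ)) (σT v π / π) ≠ 1 ∧
        EC.Reduction.res (padicPlace (v : ℕ)) (σT v π / π) ^ p = 1)
    (hφT : ∀ v : V', haveI : Fact (v : ℕ).Prime := ⟨(hV v v.2).1⟩
      (padicPlace (v : ℕ)).IsFrobeniusAt (φT v) v)
    (hsc : ∀ v : V', ∃ c : ResidueField O, c ≠ 0 ∧ W.rb (φT v) = c • 1)
    (hdσ : ∀ v, (ru (σT v)).det = 1) (hdφ : ∀ v, (ru (φT v)).det = ((v : ℕ) : A))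
    (hunr : ∀ ℓ : ℕ, ℓ.Prime → ℓ ≠ p → ℓ ∉ Sr → ℓ ∉ V' → (∀ i, ℓ ≠ q i) →
      ∀ B : ValuationSubring QBar, B.LiesOverPrime ℓ → ∀ τ ∈ B.inertiaSubgroupIn ℚ, ru τ = 1)
    (hSr : ∀ ℓ ∈ Sr, ∀ B : ValuationSubring QBar, B.LiesOverPrime ℓ →
      ∀ τ ∈ B.inertiaSubgroupIn ℚ, (ru τ).trace = 2)
    (hbound : SpaceBound p W.rb Sr V' q) {c : O} (hc2 : 2 * c = 1)
    [IsLocalRing (Algebra.adjoin O (entries ru))] :
    finrank (ResidueField O)
      (killedDer (isResAlg_subalgebra hA (Algebra.adjoin O (entries ru)))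
        (placeCoord (algebraMap O _ c)
          (fun v => corestrict (Algebra.adjoin O (entries ru)) ru
            (fun σ i j => Algebra.subset_adjoin ⟨(σ, i, j), rfl⟩) (σT v))
          (fun v => corestrict (Algebra.adjoin O (entries ru)) ru
            (fun σ i j => Algebra.subset_adjoin ⟨(σ, i, j), rfl⟩) (φT v)))) +
      3 * V'.card ≤ R := by
  classical
  set S := Algebra.adjoin O (entries ru) with hS
  set hmem : ∀ σ i j, ru σ i j ∈ S := fun σ i j => Algebra.subset_adjoin ⟨(σ, i, j), rfl⟩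
  set rS := corestrict S ru hmem with hrS
  set hRA := isResAlg_subalgebra hA S
  set K := killedDer hRA (placeCoord (algebraMap O S c) (fun v => rS (σT v)) (fun v => rS (φT v)))
  have := finite_subalgebra S
  have := IsNoetherianRing.of_finite O S
  have := hRA.isLocalHom
  have := isAdicComplete_subalgebra S hRA.isLocalHom
  have hlS : Lifts W hRA rS := lifts_corestrict S hl hmem
  have hnS : IsNormal W rS := isNormal_corestrict S hn hmem
  have hcS : IsCont rS := isCont_corestrict hA S hc hmem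
  have hdS := detIsCyclotomic_corestrict hA hp S hmem hdet hcS
  have hgen : Algebra.adjoin O (entries rS) = ⊤ := by
    refine Subalgebra.map_injective (f := S.val) Subtype.val_injective ?_
    rw [AlgHom.map_adjoin, Algebra.map_top, Subalgebra.range_val]
    refine congrArg (Algebra.adjoin O) (Set.ext fun x => ?_)
    simp only [Set.mem_image, entries, Set.mem_range]
    constructor
    · rintro ⟨y, ⟨i, rfl⟩, rfl⟩; exact ⟨i, rfl⟩
    · rintro ⟨i, rfl⟩; exact ⟨_, ⟨i, rfl⟩, rfl⟩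
  have h2k : (2 : ResidueField O) ≠ 0 := by
    intro h0
    have : p ∣ 2 := (CharP.cast_eq_zero_iff (ResidueField O) p 2).1 (by exact_mod_cast h0)
    exact hp2 ((Nat.prime_dvd_prime_iff_eq Fact.out Nat.prime_two).1 this)
  have hcS2 : 2 * algebraMap O S c = 1 := by
    rw [← map_ofNat (algebraMap O S) 2, ← map_mul, hc2, map_one]
  let T : K →ₗ[ResidueField O] (Gal → M2 (ResidueField O)) := (tangentCls W hRA rS).comp K.subtype
  have hTinj : Function.Injective T := fun a b hab => Subtype.ext (sub_eq_zero.1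
    (eq_zero_of_tangentCls_eq_cobdLin (X := 0) hlS hnS hgen (a.1 - b.1)
      (by rw [map_sub, map_zero, sub_eq_zero]; exact hab)))
  have hrS1 : ∀ τ, ru τ = 1 → rS τ = 1 := fun τ hτ => by
    refine Matrix.ext fun i j => Subtype.ext ?_
    show ru τ i j = _
    rw [hτ]
    by_cases hij : i = j
    · subst hij; simp
    · simp [hij]
  rw [← LinearMap.finrank_range_of_inj hTinj]
  letI := dualAlgebra O
  obtain ⟨c', hc', hclassP⟩ : ∃ c' : AtP, (c' = .flat ∨ c' = .strict) ∧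
      ∀ b ∈ LinearMap.range T, b ≠ 0 → c'.Holds p W.rb b := by
    have hclass : ∀ δ : K, ∀ σ, matOf ((toRep rS hcS).baseChangeAlong
          (tangentHom hRA δ.1 : S →+* DualNumber (ResidueField O)) (isLocalHom_tangentHom δ.1))
        (letI := (tangentHom hRA δ.1 : S →+* DualNumber (ResidueField O)).toAlgebra;
          (Pi.basisFun S (Fin 2)).baseChange (DualNumber (ResidueField O))) σ =
        (1 + epsM (T δ σ)) * inlM (W.rb σ) := fun δ σ => by
      letI := dualAlgebra O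
      refine (DFunLike.congr_fun (matOf_baseChangeAlong _ (isLocalHom_tangentHom δ.1) (toRep rS hcS)
        (Pi.basisFun S (Fin 2))) σ).trans ?_
      rw [matOf_toRep]
      exact mapM_tangentHom hlS δ.1 σ
    have hdetδ := fun δ : K => CFT.Tangent.DetIsCyclotomic.baseChange
      (tangentHom hRA δ.1 : S →+* DualNumber (ResidueField O)) (isLocalHom_tangentHom δ.1) hdS
    rcases hatP with hflat | ⟨hord, hlift⟩
    · refine ⟨.flat, Or.inl rfl, ?_⟩
      rintro _ ⟨δ, rfl⟩ hne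
      have hδ : δ.1 ≠ 0 := fun h0 => hne (by
        show tangentCls W hRA rS δ.1 = 0
        rw [h0, map_zero])
      exact ⟨_, _, CFT.Tangent.IsFlatAt.baseChange
        (tangentHom hRA δ.1 : S →+* DualNumber (ResidueField O)) (isLocalHom_tangentHom δ.1)
        (tangentHom_surjective hRA hδ) (isFlatAt_corestrict S hflat hmem hcS), hdetδ δ, hclass δ⟩
    · refine ⟨.strict, Or.inr rfl, ?_⟩
      rintro _ ⟨δ, rfl⟩ -
      exact ⟨_, _, hlift _ _ _ (isOrdinaryAt_baseChangeAlong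
        (tangentHom hRA δ.1 : S →+* DualNumber (ResidueField O)) (isLocalHom_tangentHom δ.1)
        (isOrdinaryAt_corestrict hA hp2 hp S hmem hdet hord hcS)) (hdetδ δ) (hclass δ), hdetδ δ,
        hclass δ⟩
  refine hbound c' hc' (LinearMap.range T) inferInstance
    ⟨?_, ?_, ?_, ?_, ?_, ?_, ?_, fun _ _ v _ hv => absurd hv (Finset.notMem_empty v), hclassP⟩
  · rintro _ ⟨δ, rfl⟩ g g'
    exact tangentCls_mul hlS δ.1 g g'
  · rintro _ ⟨δ, rfl⟩
    exact isFiniteLevel_tangentCls hcS δ.1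
  · rintro _ ⟨δ, rfl⟩ σ
    exact trace_tangentCls p hlS hcS hdS δ.1 σ
  · rintro _ ⟨δ, rfl⟩ X hX
    rw [show T δ = tangentCls W hRA rS δ.1 from rfl] at hX ⊢
    rw [eq_zero_of_tangentCls_eq_cobdLin hlS hnS hgen δ.1 hX, map_zero]
  · rintro _ ⟨δ, rfl⟩ ℓ hℓ h1 h2' h3 - h4 B hB τ hτ
    exact tangentCls_eq_zero_of_eq_one δ.1 (hrS1 τ (hunr ℓ hℓ h1 h2' h3 h4 B hB τ hτ))
  · rintro _ ⟨δ, rfl⟩ ℓ hℓ B hB τ hτ
    show (tangentCls W hRA rS δ.1 τ * W.rb τ).trace = 0
    rw [trace_tangentCls_mul_rb]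
    have e : (rS τ).trace = ((2 : ℕ) : S) := Subtype.ext (by
      show (S.val : S →+* A).toAddMonoidHom (rS τ).trace = ((2 : ℕ) : S).1
      rw [AddMonoidHom.map_trace, SubringClass.coe_natCast, Nat.cast_ofNat]
      exact hSr ℓ hℓ B hB τ hτ)
    rw [e]
    exact tangentDer_natCast δ.1 2
  · rintro _ ⟨δ, rfl⟩ v hv' hvV g hg
    show tangentCls W hRA rS δ.1 g = 0
    obtain ⟨hσi, π, m, hπ, hπord, hπσ, hπσp⟩ := hσT ⟨v, hvV⟩
    have hkill : ∀ (Xs : Gal) (e : ResidueField O), e ≠ 0 → W.rb Xs = e • 1 →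
        (∀ k, δ.1.1 (tlCoord (algebraMap O S c) (rS Xs) k) = 0) →
        δ.1.1 (rS Xs).det = 0 → tangentCls W hRA rS δ.1 Xs = 0 := fun Xs e he hXs h0 hd =>
      tangentCls_eq_zero δ.1 fun i j => eq_zero_of_tlCoord h2k hcS2 δ.1 he (fun a b => by
        rw [hlS Xs a b, hXs, Matrix.smul_apply, Matrix.one_apply, smul_ite, smul_eq_mul, mul_one,
          smul_zero]) h0 hd i j
    have hdetS : ∀ (Xs : Gal) (n : ℕ), (ru Xs).det = (n : A) → (rS Xs).det = (n : S) :=
      fun Xs n hn' => Subtype.ext (by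
        show (S.val : S →+* A) (rS Xs).det = ((n : ℕ) : S).1
        rw [RingHom.map_det, SubringClass.coe_natCast]
        exact hn')
    obtain ⟨e, he, hee⟩ := hsc ⟨v, hvV⟩
    have hbσ : tangentCls W hRA rS δ.1 (σT ⟨v, hvV⟩) = 0 :=
      hkill _ 1 one_ne_zero (by rw [one_smul]; exact hrb v hvV _ hσi)
        (fun k => by
          have := δ.2 (⟨v, hvV⟩, 0, k)
          simpa [placeCoord] using this)
        (by rw [hdetS _ 1 (by rw [Nat.cast_one]; exact hdσ _)]; exact tangentDer_natCast δ.1 1)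
    have hbF : tangentCls W hRA rS δ.1 (φT ⟨v, hvV⟩) = 0 :=
      hkill _ e he hee
        (fun k => by
          have := δ.2 (⟨v, hvV⟩, 1, k)
          simpa [placeCoord] using this)
        (by rw [hdetS _ v (hdφ _)]; exact tangentDer_natCast δ.1 v)
    exact eq_zero_on_decomposition hrfin (fun g g' => tangentCls_mul hlS δ.1 g g')
      (isFiniteLevel_tangentCls hcS δ.1) (hV v hvV).2 (hrb v hvV) hσi hπ hπord hπσ hπσp
      hbσ (hφT ⟨v, hvV⟩) hbF hg

end Fermat.Agent.RT.Lift59.Scalar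

end
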