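import Fermat.Agent.RT.Lift59.Scalar.Auxiliary
import Fermat.Agent.RT.Lift59.Scalar.Residual
import Fermat.Agent.RT.Lift59.Scalar.Ordinary
import Fermat.Agent.RT.Lift59.Scalar.Tangent
import Fermat.Agent.RT.Patch.Supply
import Fermat.Agent.EC.Rep.Local.StrictOrdinary

/-!
# The patching level of a semistable model attached to a set of auxiliary primes
-/

set_option autoImplicit false
set_option linter.style.haveILetI false

noncomputable section

open WeierstrassCurve WeierstrassCurve.Affine WeierstrassCurve.Affine.Point Polynomial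
open scoped WeierstrassCurve.Affine TensorProduct

namespace Fermat.Agent.RT.Lift59.Scalar

open Fermat.Agent.Deform Fermat.Agent.RT.Assembly Fermat.Agent.Arith Fermat.Agent.RT.GammaH
open IsLocalRing Module
open Fermat.Agent.RT.Glue (diaA)
open Fermat.Agent.RT.Patch (trace_eq_of_charpoly trace_matOf det_matOf charpoly_matOf
  rep_add_inv_const scalar_eq_rep_add_inv levelChar_gen_left levelChar_gen_right
  exists_pow_eq_of_cast_eq_one sum_dia_mul_eq_zero frobenius_mul_inertia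
  eq_natCast_of_forall_congr isCongruentLevel_of_dvd levelChar_sub_mem)

variable {W : WeierstrassCurve ℤ} {p : ℕ} [Fact p.Prime] {hΔ : W.Δ ≠ 0}
  {O : Type} [CommRing O] [IsDomain O]
  [IsDiscreteValuationRing O] [IsAdicComplete (maximalIdeal O) O] [Finite (ResidueField O)]
  [CharZero O] [CharP (ResidueField O) p] [Algebra (ZMod p) (ResidueField O)]

set_option maxHeartbeats 4000000 in
/-- **A patching level.** -/
theorem exists_patchLevel (hp : (p : O) ∈ maximalIdeal O) (hp2 : p ≠ 2)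
    {ζ ζi : O} (hζ : IsPrimitiveRoot ζ p) (hζi : ζ * ζi = 1) {c : O} (hc : 2 * c = 1) {π : O}
    (hπ : Irreducible π) (hW : W.IsSemistableModel) (hirr : W.ModRepIsIrreducible p)
    {Rg : Rigid O} (bb : Basis (Fin 2) (ResidueField O) (wRho W p hΔ (ResidueField O)).V)
    (hRg : Rg.rb = wMat bb) {N : ℕ} [NeZero N] (hN : Squarefree N)
    (hmod : W.IsResiduallyModularOfLevel p N) (hpN : p ∣ N → ¬ SmallAt W p p)
    (hlift : ¬ SmallAt W p p → StrictLift p Rg.rb) {Sr : Finset ℕ}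
    (hSr : ∀ ℓ, ℓ ∈ Sr ↔ ℓ.Prime ∧ ℓ ≠ p ∧ ¬ SmallAt W p ℓ) {V' : Finset ℕ}
    (hV' : ∀ v, v ∈ V' ↔ v.Prime ∧ v ≠ p ∧ v ∣ N ∧ SmallAt W p v)
    (hsc : ∀ v ∈ V', ScalarAt W p v)
    {v₀ : ℕ} (hv₀ : v₀ ∈ V') (hlow : ¬ W.IsResiduallyModularOfLevel p (N / v₀))
    {R : ℕ} {q : Fin R → ℕ} (hinj : Function.Injective q) {n : ℕ}
    (hq : ∀ i, (q i).Prime ∧ ¬ q i ∣ N ∧ q i ≠ p ∧ q i ∉ Sr ∧ p ^ (n + 1) ∣ q i - 1)
    (hreg : ∀ i, ∀ A : ValuationSubring QBar, A.LiesOverPrime (q i) → ∀ F : Gal,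
      A.IsFrobeniusAt F (q i) → ∃ α β : ResidueField O, α ≠ β ∧
        (wMat bb F).charpoly = (X - C α) * (X - C β))
    (hbound : SpaceBound p Rg.rb Sr V' q) :
    Nonempty (PatchLevel (fun _ : V' => c * (ζ - ζi))
      (frobRel (g := R - 3 * V'.card) c (⟨v₀, hv₀⟩ : V') v₀) π p R (Patch.rankBound O N R) n) := by
  classical
  have hpp : p.Prime := Fact.out
  let I := Patch.patchInputs
  have hVmem : ∀ v ∈ V', v.Prime ∧ SmallAt W p v ∧ v ∣ N ∧ v ≠ p := fun v hv => by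
    obtain ⟨h1, h2, h3, h4⟩ := (hV' v).1 hv
    exact ⟨h1, h4, h3, h2⟩
  have hVSr : ∀ v ∈ V', v ∉ Sr := fun v hv h => ((hSr v).1 h).2.2 (hVmem v hv).2.1
  -- the level
  set T := ∏ i, q i with hT
  have hT0 : T ≠ 0 := Finset.prod_ne_zero_iff.2 fun i _ => (hq i).1.ne_zero
  have : NeZero (N * T) := ⟨mul_ne_zero (NeZero.ne N) hT0⟩
  have hTprime : ∀ t : ℕ, t.Prime → t ∣ T → ∃ i, t = q i := fun t ht htT => by
    obtain ⟨i, -, hi⟩ := ht.prime.dvd_finsetProd_iff q |>.1 htT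
    exact ⟨i, (Nat.prime_dvd_prime_iff_eq ht (hq i).1).1 hi⟩
  have hqT : ∀ i, q i ∣ T := fun i => Finset.dvd_prod_of_mem q (Finset.mem_univ i)
  have hTsq : Squarefree T := by
    refine Finset.squarefree_prod_of_pairwise_isCoprime (fun i _ j _ hij => ?_) fun i _ =>
      (hq i).1.squarefree
    exact Nat.coprime_iff_isRelPrime.1 ((Nat.coprime_primes (hq i).1 (hq j).1).2 fun h => hij (hinj h))
  have hcop : N.Coprime T := by
    refine Nat.coprime_of_dvd fun t ht htN htT => ?_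
    obtain ⟨i, rfl⟩ := hTprime t ht htT
    exact (hq i).2.1 htN
  have hL : Squarefree (N * T) := (Nat.squarefree_mul hcop).2 ⟨hN, hTsq⟩
  have hTcard : T.primeFactors.card ≤ R := by
    refine (Finset.card_le_card (t := Finset.univ.image q) fun t ht => ?_).trans
      (Finset.card_image_le.trans_eq (by simp))
    obtain ⟨i, rfl⟩ := hTprime t (Nat.prime_of_mem_primeFactors ht) (Nat.dvd_of_mem_primeFactors ht)
    exact Finset.mem_image_of_mem q (Finset.mem_univ i)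
  have hpT : ¬ p ∣ T := fun h' => by
    obtain ⟨i, hi⟩ := hTprime _ hpp h'
    exact (hq i).2.2.1 hi.symm
  set S := badSet W p (N * T)
  have hS : ∀ v : ℕ, v.Prime → v ∣ N * T → v ∈ S := fun v hv h =>
    mem_badSet_of_dvd (NeZero.ne _) hv h
  have hpS : p ∈ S := p_mem_badSet _
  have hEis := exists_wAbar_ne (k := ResidueField O) hp2 hΔ hirr S
  have hnew : ∀ (S : Finset ℕ) (t : ℕ), badSet W p (N * T) ⊆ S → t.Prime → t ∣ T →
      Lift.NotNewAt S (wAbar W (ResidueField O)) (N * T) t := fun S t hS ht htT => by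
    obtain ⟨i, rfl⟩ := hTprime t ht htT
    refine notNewAt bb hL ht (hq i).2.2.1 ?_ (hreg i) hS
    have h1 : (p : ℕ) ∣ q i - 1 := (dvd_pow_self _ n.succ_ne_zero).trans (hq i).2.2.2.2
    rw [← Nat.sub_add_cancel ht.one_le, Nat.cast_add, Nat.cast_one,
      (CharP.cast_eq_zero_iff (ResidueField O) p _).2 h1, zero_add]
  -- the places
  have : Nonempty V' := ⟨⟨v₀, hv₀⟩⟩
  set w : V' ⊕ Fin R → ℕ := Sum.elim (fun v : V' => (v : ℕ)) q with hwdef
  have hw : ∀ x, (w x).Prime ∧ w x ≠ p ∧ w x ∣ N * T ∧ p ∣ w x - 1 := by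
    rintro (⟨v, hv⟩ | i)
    · obtain ⟨h1, -, h3, h4⟩ := hVmem v hv
      refine ⟨h1, h4, dvd_mul_of_dvd_left h3 T, ?_⟩
      show p ∣ v - 1
      have h := (hsc v hv).1
      rw [← Nat.cast_one, ZMod.natCast_eq_natCast_iff'] at h
      exact (Nat.modEq_iff_dvd' h1.one_le).1 h.symm
    · exact ⟨(hq i).1, (hq i).2.2.1, dvd_mul_of_dvd_right (hqT i) N,
        (dvd_pow_self _ n.succ_ne_zero).trans (hq i).2.2.2.2⟩
  have hwinj : Function.Injective w := by
    rintro (⟨u, hu⟩ | i) (⟨v, hv⟩ | j) h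
    · exact congrArg Sum.inl (Subtype.ext h)
    · exact ((hq j).2.1 ((show u = q j from h) ▸ (hVmem u hu).2.2.1)).elim
    · exact ((hq i).2.1 ((show q i = v from h).symm ▸ (hVmem v hv).2.2.1)).elim
    · exact congrArg Sum.inr (hinj h)
  have hplace : ∀ x, haveI : Fact (w x).Prime := ⟨(hw x).1⟩
      ∃ (σ : Gal) (a : (ZMod (w x))ˣ) (π₁ : QBar) (m : ℤ),
        σ ∈ (padicPlace (w x)).inertiaSubgroupIn ℚ ∧
        (∀ μ : QBar, μ ^ w x = 1 → σ μ = μ ^ (a : ZMod (w x)).val) ∧ orderOf a = w x - 1 ∧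
        π₁ ≠ 0 ∧ Mazur.Eisenstein.ordAt (padicPlace (w x)) (w x) π₁ = m / p ∧
        EC.Reduction.res (padicPlace (w x)) (σ π₁ / π₁) ≠ 1 ∧
        EC.Reduction.res (padicPlace (w x)) (σ π₁ / π₁) ^ p = 1 := fun x =>
    haveI : Fact (w x).Prime := ⟨(hw x).1⟩
    exists_inertia_uniformiser hpp (CFT.Local.padicPlace_liesOverPrime _) (hw x).1 (hw x).2.2.2
  choose σ a π₁ m₁ hσI hσa ha hπ₁ hπord hπσ hπσp using hplace
  -- the character
  obtain ⟨ψ, hψs, hψgen, hψone⟩ := exists_levelPsi (V := V') hp2 n hL (fun v : V' => (v : ℕ)) q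
    (fun x => (hw x).1) (fun x => (hw x).2.2.1) hwinj (fun v => (hw (Sum.inl v)).2.2.2)
    (fun i => (pow_dvd_pow _ n.le_succ).trans (hq i).2.2.2.2) a ha
  have hΔp : IsPGroup p (LevelGroup V' p R n) := isPGroup_levelGroup p n
  have hu : ∀ x, ∃ u : (ZMod (N * T))ˣ,
      ((u : ZMod (N * T)).cast : ZMod (N * T / w x)) = 1 ∧
        ZMod.unitsMap (hw x).2.2.1 u = a x := fun x =>
    exists_unit_crt (hw x).2.2.1 ((hw x).1.coprime_iff_not_dvd.2 fun hd =>
      (hw x).1.not_isUnit (hL _ ((Nat.dvd_div_iff_mul_dvd (hw x).2.2.1).1 hd))) (a x)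
  choose u hu hua using hu
  -- the Hecke module
  have : Fintype (LevelGroup V' p R n) := Fintype.ofFinite _
  obtain ⟨e, he, H, hHd, hHpos⟩ := Level.exists_heckeModule' (p := p) hp2
    (exists_three_prime hp2 hΔ hW hirr S) hL hΔp hψs hS hEis
  have hd : 0 < H.d := hHpos (isCongruentLevel_of_dvd hL (dvd_mul_right N T) hS
    (isCongruentLevel_badSet hΔ (NeZero.ne _) (dvd_mul_right N T) hmod))
  have hdB : H.d ≤ Patch.rankBound O N R :=
    hHd ▸ finrank_le_rankBound hL hTcard hS hEis (fun t => hnew S t (Finset.Subset.refl S)) he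
  have := Glue.isLocalRing_algebra H hp hΔp hd
  have := Glue.isLocalHom_algebraMap H hp hΔp
  have := Glue.isAdicComplete_algebra H
  have hA : IsResAlg O H.algebra :=
    ⟨inferInstance, Glue.residue_algebraMap_surjective H hp hΔp⟩
  haveI hfinA : Module.Finite O H.algebra :=
    Module.Finite.of_injective H.algebra.val.toLinearMap Subtype.val_injective
  have hpA : (p : H.algebra) ∈ maximalIdeal H.algebra := Glue.natCast_mem hp hΔp
  -- the representation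
  obtain ⟨pt, G, hres, -, hunrG, -⟩ := Glue.exists_rep (hS := hS) hp hΔp hp2 hpS
    (isAbsolutelyIrreducible_wRho hp2 hirr) (hasCharpolys (N * T)) (fun M => I.model p M) (H := H)
  obtain ⟨b, hbl⟩ := exists_lifts_basis hRg hA G.rep hres
  obtain ⟨P₀, hl, hn⟩ := exists_normal hbl
  set r₀ := matOf G.rep b
  set ru := conjM P₀ r₀
  have hru : ∀ τ, ru τ = (↑P₀⁻¹ : M2 H.algebra) * r₀ τ * P₀ := fun τ => conjM_apply P₀ r₀ τ
  have htr : ∀ τ, (ru τ).trace = LinearMap.trace H.algebra G.rep.V (G.rep.ρ τ) := fun τ => by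
    rw [hru, Matrix.trace_mul_cycle, Units.mul_inv, one_mul, trace_matOf]
  have hdetru : ∀ τ, (ru τ).det = (G.R τ).det := fun τ => by
    rw [hru, Matrix.det_units_conj', det_matOf, G.det_rep]
  have hdcong : ∀ (j : ℕ) (τ : Gal) (a : ℕ), (∀ μ : QBar, μ ^ p ^ j = 1 → τ μ = μ ^ a) →
      (ru τ).det - a ∈ Ideal.span {(p : H.algebra) ^ j} := fun j τ a h => by
    rw [hdetru]; exact G.det_congr j τ a h
  have hc₀ : IsCont r₀ := isCont_matOf G.rep b
  have hcru : IsCont ru := hc₀.conj P₀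
  have hpw : ∀ x : V' ⊕ Fin R, Sum.elim (fun v : V' => (v : ℕ)) q x ≠ p := by
    rintro (⟨v, hv⟩ | i)
    · exact (hVmem v hv).2.2.2
    · exact (hq i).2.2.1
  have hatP : (toRep ru hcru).IsFlatAt p ∨
      ((toRep ru hcru).IsOrdinaryAt p ∧ StrictLift p Rg.rb) := by
    by_cases hpd : p ∣ N
    · have hns := hpN hpd
      have hpΔ : (p : ℤ) ∣ W.Δ := by
        by_contra hd
        exact hns (by rw [SmallAt, padicValInt.eq_zero_of_not_dvd hd]; exact dvd_zero p)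
      refine Or.inr ⟨isOrdinaryAt_of_isEquiv (isEquiv_conj hc₀ P₀)
        (isOrdinaryAt_of_isEquiv (isEquiv_toRep_matOf G.rep b) ?_), hlift hns⟩
      exact isOrdinaryAt_glued G hp hΔp hp2 hpS
        (fun hpL u hu => hψone p hpw hpp hpL u hu) hres
        (isOrdinaryAt_residual_baseChange
          (EC.Rep.isStrictOrdinaryAt_residualRep hΔ hp2 hpΔ (hW p hpp hpΔ)).isOrdinaryAt)
    · exact Or.inl (Patch.isFlatAt_conjM (Patch.isFlatAt_of_isEquiv (isEquiv_toRep_matOf G.rep b)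
        (G.isFlatAt hp hΔp fun M _ j hM => I.galOrder M p (I.congr M p) hp2 (fun h =>
          (hpp.dvd_mul.1 (hpp.dvd_of_dvd_pow (h.trans hM))).elim hpd hpT) j)) P₀)
  have hru1 : ∀ τ, G.rep.ρ τ = 1 → ru τ = 1 := fun τ h => by
    have h' : r₀ τ = 1 := by
      show LinearMap.toMatrixAlgEquiv b (G.rep.ρ τ) = 1
      rw [h, map_one]
    rw [hru, h', mul_one, Units.inv_mul]
  have hred : ∀ τ, Rg.rb τ = 1 → ∀ x y, (ru τ - 1) x y ∈ maximalIdeal H.algebra := fun τ h x y => by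
    rw [← augment_eq_zero_iff hA, Matrix.sub_apply, map_sub, hl τ x y, h, Matrix.one_apply,
      Matrix.one_apply]
    split_ifs <;> simp
  -- inertia and Frobenius at the places
  have hE : ∀ x, Glue.TwistedInertia (H := H) (fun M => I.model p M) pt (w x) := fun x => by
    haveI : Fact (w x).Prime := ⟨(hw x).1⟩
    exact G.twistedInertia hp hΔp hp2 hpS hL (hw x).2.2.1 (hw x).2.1
      (fun R' M _ _ g => I.inertia p (w x) R' M g)
      (haveI : NeZero (w x ^ 2 * (N * T / w x) ^ 2) :=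
        ⟨by rw [← mul_pow, Nat.mul_div_cancel' (hw x).2.2.1]; exact pow_ne_zero 2 (NeZero.ne _)⟩
       I.congr _ _)
      (fun M _ _ h1 h2 => (I.semistable M (hw x).1 (hw x).2.1 h1 h2).1) hres
      (fun A hA' τ hτ => trace_wRho_inertia hW (hw x).1 (hw x).2.1 hA' hτ)
  have hdia : ∀ x, (ru (σ x)).trace = diaA H (levelGen p n x) + diaA H (levelGen p n x)⁻¹ :=
    fun x => by
    haveI : Fact (w x).Prime := ⟨(hw x).1⟩
    have huv : ((u x : ZMod (N * T)).cast : ZMod (w x)) = ((a x : ZMod (w x)).val : ℕ) := by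
      rw [ZMod.natCast_zmod_val, ← hua x, ZMod.unitsMap_val]
    have h := G.charpoly_inertia (hw x).1 (hw x).2.1 (hE x)
      (CFT.Local.padicPlace_liesOverPrime _) (hσI x) (hσa x) (u x) (hu x) huv
    rw [hψgen x (u x) (hu x) (hua x), ← charpoly_matOf G.rep b] at h
    rw [htr, ← trace_matOf G.rep b]
    exact trace_eq_of_charpoly h
  have hF : ∀ v : V', haveI : Fact (v : ℕ).Prime := ⟨(hVmem v v.2).1⟩
      ∃ F : Gal, (padicPlace (v : ℕ)).IsFrobeniusAt F v := fun v =>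
    haveI : Fact (v : ℕ).Prime := ⟨(hVmem v v.2).1⟩
    exists_isFrobeniusAt (CFT.Local.padicPlace_liesOverPrime _) (hVmem v v.2).1
  choose φ hφ using hF
  have hrb1 : ∀ v ∈ V', ∀ {B : ValuationSubring QBar}, B.LiesOverPrime v →
      ∀ τ ∈ B.inertiaSubgroupIn ℚ, Rg.rb τ = 1 := fun v hv B hB τ hτ => by
    rw [hRg]
    exact wMat_inertia_eq_one bb hp2 hW (hVmem v hv).1 (hVmem v hv).2.2.2 (hVmem v hv).2.1 hB hτ
  have hscal : ∀ v : V', ∃ e : ResidueField O, e ≠ 0 ∧ Rg.rb (φ v) = e • 1 := fun v => by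
    haveI : Fact (v : ℕ).Prime := ⟨(hVmem v v.2).1⟩
    obtain ⟨e, he⟩ := wMat_frobenius_scalar bb (hsc v v.2)
      (CFT.Local.padicPlace_liesOverPrime _) (hφ v)
    rw [← hRg] at he
    refine ⟨e, fun h0 => CFT.Tangent.det_map_ne_zero Rg.rb (φ v) ?_, he⟩
    rw [he, h0, zero_smul, Matrix.det_zero]
  have hdσ : ∀ v : V', (ru (σ (Sum.inl v))).det = 1 := fun v => by
    rw [← Nat.cast_one]
    refine eq_natCast_of_forall_congr hpA fun j => hdcong j _ 1 fun μ hμ => ?_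
    rw [pow_one]
    haveI : Fact (w (Sum.inl v)).Prime := ⟨(hw _).1⟩
    exact inertia_root (CFT.Local.padicPlace_liesOverPrime _) (hw _).1 (hσI _) hμ fun h =>
      (hw (Sum.inl v)).2.1 ((Nat.prime_dvd_prime_iff_eq (hw _).1 hpp).1 ((hw _).1.dvd_of_dvd_pow h))
  have hdφ : ∀ v : V', (ru (φ v)).det = ((v : ℕ) : H.algebra) := fun v => by
    haveI : Fact (v : ℕ).Prime := ⟨(hVmem v v.2).1⟩
    refine eq_natCast_of_forall_congr hpA fun j => hdcong j _ _ fun μ hμ =>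
      GaloisReps.frobenius_apply_root (CFT.Local.padicPlace_liesOverPrime _) (hVmem v v.2).1 (hφ v)
        hμ fun h => (hVmem v v.2).2.2.2
          ((Nat.prime_dvd_prime_iff_eq (hVmem v v.2).1 hpp).1 ((hVmem v v.2).1.dvd_of_dvd_pow h))
  have hconj : ∀ v : V', ru (φ v) * ru (σ (Sum.inl v)) = ru (σ (Sum.inl v)) ^ (v : ℕ) * ru (φ v) :=
    fun v => by
    haveI : Fact (v : ℕ).Prime := ⟨(hVmem v v.2).1⟩
    exact frobenius_mul_inertia hpp hpA hcru (hVmem v v.2).1 (hVmem v v.2).2.2.2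
      (CFT.Local.padicPlace_liesOverPrime _)
      (fun τ hτ => hred τ (hrb1 v v.2 (CFT.Local.padicPlace_liesOverPrime _) τ hτ))
      (hσI (Sum.inl v)) (hφ v)
  -- the matrices over the level
  have hζp : ζ ^ p = 1 := hζ.pow_eq_one
  have hζne : ζ ≠ ζi := fun h => by
    have h2 : ζ ^ 2 = 1 := (sq ζ).trans ((congrArg (ζ * ·) h).trans hζi)
    exact hp2 ((Nat.prime_dvd_prime_iff_eq hpp Nat.prime_two).1 ((hζ.pow_eq_one_iff_dvd 2).1 h2))
  have hπζ : π ∣ ζ - 1 := by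
    rw [← Ideal.mem_span_singleton, ← hπ.maximalIdeal_eq, ← residue_eq_zero_iff, map_sub, map_one]
    refine eq_zero_of_pow_eq_zero (n := p) ?_
    rw [sub_pow_char, one_pow, ← map_pow, hζp, map_one, sub_self]
  let B : DiaBasis H.dia H.d := ⟨H.basis, H.basis_bijective⟩
  let χ := levelChar (V := V') (r := R) (O := O) hζp n
  have hcomm : ∀ x ∈ H.algebra, ∀ δ, x * H.dia δ = H.dia δ * x := fun x hx δ =>
    congrArg Subtype.val (mul_comm (⟨x, hx⟩ : H.algebra) (diaA H δ))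
  let rep := B.rep χ hcomm
  have hrepdia : ∀ δ, rep (diaA H δ) = χ δ • 1 := fun δ => B.mat_dia χ δ
  have htrT : ∀ v : V', rep (ru (σ (Sum.inl v))).trace = rep (algebraMap O H.algebra (ζ + ζi)) :=
    fun v => by
    rw [hdia]
    exact rep_add_inv_const rep hrepdia hζi (levelChar_gen_left hζp n v)
  have htrQ : ∀ i, Matrix.scalar (Fin H.d)
        ((1 + Ideal.Quotient.mk (levelIdeal O p n) (MvPowerSeries.X i)) ^ 2 + 1) =
      Matrix.scalar (Fin H.d) (1 + Ideal.Quotient.mk (levelIdeal O p n) (MvPowerSeries.X i)) *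
        rep (ru (σ (Sum.inr i))).trace := fun i => by
    rw [hdia]
    exact scalar_eq_rep_add_inv rep hrepdia (levelChar_gen_right hζp n i)
  -- the element divisible by `π`
  have hv₀N := (hVmem v₀ hv₀).2.2.1
  set x₀ : V' ⊕ Fin R := Sum.inl ⟨v₀, hv₀⟩
  haveI : Fact v₀.Prime := ⟨(hVmem v₀ hv₀).1⟩
  haveI : Fact (w x₀).Prime := ⟨(hw x₀).1⟩
  have hncl : ¬ IsCongruentLevel S (wAbar W (ResidueField O)) (N * T / v₀) := fun h => hlow
    (isResiduallyModularOfLevel_of_congruent_level hΔ hL (Nat.div_dvd_of_dvd (dvd_mul_of_dvd_left hv₀N T))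
      hnew h (Nat.div_dvd_of_dvd hv₀N) fun t ht htM htN => by
        rcases eq_or_ne t v₀ with rfl | hne
        · exact absurd htM fun hd => ht.not_isUnit
            (hL t ((Nat.dvd_div_iff_mul_dvd (dvd_mul_of_dvd_left hv₀N T)).1 hd))
        · refine Nat.dvd_div_of_mul_dvd ?_
          exact ((Nat.coprime_primes (hVmem v₀ hv₀).1 ht).2 hne.symm).mul_dvd_of_dvd_of_dvd hv₀N htN)
  have hf : ∀ i j, rep ((ru (φ ⟨v₀, hv₀⟩)).trace ^ 2 - ((v₀ : H.algebra) + 1) ^ 2) i j ∈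
      Ideal.span {algebraMap O (MvPowerSeries (Fin R) O ⧸ levelIdeal O p n) π} := by
    intro i j
    set K := Subgroup.zpowers (ψ (u x₀))
    have := Fintype.ofFinite K
    refine B.mat_mem_of_mul_norm χ K (sum_dia_mul_eq_zero hp K _ fun θ hθ => ?_) _
      (fun δ k hk => levelChar_sub_mem hp2 n hζp hπζ (hψgen x₀ (u x₀) (hu x₀) (hua x₀)) δ k hk) i j
    rw [map_sub, map_pow, map_pow, map_add, map_natCast, map_one, htr, sub_eq_zero]
    refine G.trace_sq_frobenius (hVmem v₀ hv₀).1 (dvd_mul_of_dvd_left hv₀N T)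
      (hVmem v₀ hv₀).2.2.2 hncl (fun M _ _ h1 h2 =>
        I.semistable M (hVmem v₀ hv₀).1 (hVmem v₀ hv₀).2.2.2 h1 h2)
      (CFT.Local.padicPlace_liesOverPrime _) (hφ ⟨v₀, hv₀⟩) θ fun u' hu' => ?_
    obtain ⟨k, rfl⟩ := exists_pow_eq_of_cast_eq_one (hw x₀).2.2.1
      ((hw x₀).1.coprime_iff_not_dvd.2 fun hd =>
        (hw x₀).1.not_isUnit (hL _ ((Nat.dvd_div_iff_mul_dvd (hw x₀).2.2.1).1 hd)))
      (hu x₀) hu' (hua x₀) (ha x₀)
    rw [map_pow, map_pow, map_pow, hθ _ (Subgroup.mem_zpowers _), one_pow]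
  -- the tangent bound
  haveI hloc : IsLocalRing (Algebra.adjoin O (entries ru)) := isLocalRing_subalgebra _
  have hrfin : GaloisFactorsThroughFiniteLevel Rg.rb := hRg ▸ CFT.TWPrimes.finiteLevel_matRes _ bb
  have hT : ∀ v : V', haveI : Fact (v : ℕ).Prime := ⟨(hVmem v v.2).1⟩
      σ (Sum.inl v) ∈ (padicPlace (v : ℕ)).inertiaSubgroupIn ℚ := fun v => hσI (Sum.inl v)
  have hTord : ∀ v : V', haveI : Fact (v : ℕ).Prime := ⟨(hVmem v v.2).1⟩
      Mazur.Eisenstein.ordAt (padicPlace (v : ℕ)) v (π₁ (Sum.inl v)) =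
        m₁ (Sum.inl v) / p := fun v => hπord (Sum.inl v)
  have hTne : ∀ v : V', haveI : Fact (v : ℕ).Prime := ⟨(hVmem v v.2).1⟩
      EC.Reduction.res (padicPlace (v : ℕ)) (σ (Sum.inl v) (π₁ (Sum.inl v)) / π₁ (Sum.inl v)) ≠ 1 :=
    fun v => hπσ (Sum.inl v)
  have hTp : ∀ v : V', haveI : Fact (v : ℕ).Prime := ⟨(hVmem v v.2).1⟩
      EC.Reduction.res (padicPlace (v : ℕ)) (σ (Sum.inl v) (π₁ (Sum.inl v)) / π₁ (Sum.inl v)) ^ p =
        1 := fun v => hπσp (Sum.inl v)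
  have hg := finrank_killedDer_add_le (p := p) (q := q) (V' := V') hA hp2 hp hl hn hcru hdcong hatP hrfin
    (fun v hv => ⟨(hVmem v hv).1, (hVmem v hv).2.2.2⟩)
    (fun v hv _ g hg' => hrb1 v hv (CFT.Local.padicPlace_liesOverPrime v) g hg')
    (fun v => σ (Sum.inl v)) φ
    (fun v => ⟨hT v, π₁ (Sum.inl v), m₁ (Sum.inl v), hπ₁ (Sum.inl v), hTord v, hTne v, hTp v⟩)
    hφ hscal hdσ hdφ
    (fun ℓ hℓ hℓp hℓS hℓV hℓq B' hB' τ hτ => hru1 τ (hunrG ℓ hℓ (fun h => by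
      rcases hℓ.dvd_mul.1 h with h1 | h1
      · rcases hℓ.dvd_mul.1 h1 with h2 | h2
        · refine hℓV ((hV' ℓ).2 ⟨hℓ, hℓp, h2, ?_⟩)
          by_contra hs
          exact hℓS ((hSr ℓ).2 ⟨hℓ, hℓp, hs⟩)
        · obtain ⟨i, hi⟩ := hTprime ℓ hℓ h2
          exact hℓq i hi
      · exact hℓp ((Nat.prime_dvd_prime_iff_eq hℓ hpp).1 h1)) B' hB' τ hτ))
    (fun ℓ hℓS B' hB' τ hτ => by
      obtain ⟨hℓ, hℓp, hℓs⟩ := (hSr ℓ).1 hℓS
      by_cases hℓL : ℓ ∣ N * T
      · have h := G.isUnipotentOnInertiaAt hℓ hℓL hℓp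
          (fun u' hu' => hψone ℓ (fun x => by
            rcases x with ⟨v, hv⟩ | i
            · exact fun h => hVSr v hv ((show v = ℓ from h) ▸ hℓS)
            · exact fun h => (hq i).2.2.2.1 ((show q i = ℓ from h) ▸ hℓS)) hℓ hℓL u' hu')
          (fun M _ _ h1 h2 => (I.semistable M hℓ hℓp h1 h2).1) B' hB' τ hτ
        rw [← charpoly_matOf G.rep b] at h
        rw [htr, ← trace_matOf G.rep b, trace_eq_of_charpoly (a := 1) (b := 1)
          (h.trans (by rw [map_one, sq])), one_add_one_eq_two]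
      · rw [hru1 τ (hunrG ℓ hℓ (fun h => (hℓ.dvd_mul.1 h).elim hℓL
          fun h1 => hℓp ((Nat.prime_dvd_prime_iff_eq hℓ hpp).1 h1)) B' hB' τ hτ)]
        simp)
    hbound hc
  refine Assembly.exists_patchLevel hA hd hdB rep c hc ru (fun v => σ (Sum.inl v)) φ
    (fun i => σ (Sum.inr i)) ζ ζi hζi hζp hζne (fun v : V' => (v : ℕ)) (fun v => ?_) (fun v i j => ?_)
    (fun v => ?_) hdσ hdφ hconj htrT htrQ ⟨v₀, hv₀⟩ hf (by omega)
  · obtain ⟨t, ht⟩ := (hw (Sum.inl v)).2.2.2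
    have h1 : (v : ℕ) - 1 = p * t := ht
    have h2 := (hVmem v v.2).1.one_le
    show (v : ℕ) % p = 1
    rw [show (v : ℕ) = p * t + 1 by omega, Nat.mul_add_mod, Nat.mod_eq_of_lt hpp.one_lt]
  · haveI : Fact (v : ℕ).Prime := ⟨(hVmem v v.2).1⟩
    rw [hl, hrb1 v v.2 (CFT.Local.padicPlace_liesOverPrime (v : ℕ)) _ (hT v), Matrix.one_apply]
  · obtain ⟨e', -, he'⟩ := hscal v
    exact ⟨e', fun i j => by
      rw [hl, he', Matrix.smul_apply, Matrix.one_apply, smul_ite, smul_eq_mul, mul_one, smul_zero]⟩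

end Fermat.Agent.RT.Lift59.Scalar

end
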