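import Fermat.Agent.RT.Lift59.Scalar.Residual
import Mathlib.LinearAlgebra.Dual.Lemmas

/-!
# Triangular matrices in two bases
-/

set_option autoImplicit false
set_option linter.style.haveILetI false
set_option linter.unusedSectionVars false

noncomputable section

namespace Fermat.Agent.RT.Lift59.Scalar

open Module Matrix Fermat.Agent.Deform
open scoped TensorProduct

/-- The change of basis intertwines the matrices. -/
theorem toMatrix_mul_toMatrixAlgEquiv {R V : Type} [CommRing R] [AddCommGroup V] [Module R V]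
    (b b' : Basis (Fin 2) R V) (f : Module.End R V) :
    b'.toMatrix b * LinearMap.toMatrixAlgEquiv b f =
      LinearMap.toMatrixAlgEquiv b' f * b'.toMatrix b :=
  (basis_toMatrix_mul_linearMap_toMatrix b b' b f).trans
    (linearMap_toMatrix_mul_basis_toMatrix b b' b' f).symm

variable {k : Type} [Field k]

/-- Two conjugate nontrivial unipotents in triangular form. -/
theorem triangular_conj {Q R F : M2 k} (h : Q * R = F * Q) (hQ : Q.det ≠ 0)
    (hR : R 0 0 = 1 ∧ R 1 0 = 0 ∧ R 1 1 = 1) (hF : F 0 0 = 1 ∧ F 1 0 = 0 ∧ F 1 1 = 1)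
    (hne : R ≠ 1 ∨ F ≠ 1) :
    Q 1 0 = 0 ∧ Q 0 0 * R 0 1 = F 0 1 * Q 1 1 ∧ Q 0 0 ≠ 0 ∧ Q 1 1 ≠ 0 := by
  have hQu : IsUnit Q := (Matrix.isUnit_iff_isUnit_det Q).2 (isUnit_iff_ne_zero.2 hQ)
  have hF01 : F 0 1 ≠ 0 := fun h0 => by
    have hF1 : F = 1 := Matrix.ext fun i j => by fin_cases i <;> fin_cases j <;> simp [hF, h0]
    rw [hF1, one_mul] at h
    have hR1 : R = 1 := hQu.mul_left_cancel (h.trans (mul_one Q).symm)
    rcases hne with h' | h'
    · exact h' hR1
    · exact h' hF1
  have h00 := congrFun (congrFun h 0) 0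
  have h01 := congrFun (congrFun h 0) 1
  simp only [Matrix.mul_apply, Fin.sum_univ_two, hR, hF, mul_one, mul_zero, add_zero, one_mul]
    at h00 h01
  have hQ10 : Q 1 0 = 0 := (mul_eq_zero.1 (left_eq_add.1 h00)).resolve_left hF01
  rw [Matrix.det_fin_two, hQ10, mul_zero, sub_zero] at hQ
  exact ⟨hQ10, by linear_combination h01, left_ne_zero_of_mul hQ, right_ne_zero_of_mul hQ⟩

/-- The lower diagonal entries of conjugate triangular matrices agree. -/
theorem triangular_diag {Q R F : M2 k} (h : Q * R = F * Q) (hQ : Q 1 0 = 0) (hQ1 : Q 1 1 ≠ 0)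
    (hF : F 1 0 = 0) : R 1 1 = F 1 1 := by
  have h11 := congrFun (congrFun h 1) 1
  simp only [Matrix.mul_apply, Fin.sum_univ_two, hQ, hF, zero_mul, zero_add] at h11
  exact mul_left_cancel₀ hQ1 (h11.trans (mul_comm _ _))

/-- The upper entries of conjugate unipotent triangular matrices. -/
theorem triangular_upper {Q R F : M2 k} (h : Q * R = F * Q) (hR : R 1 1 = 1) (hF : F 0 0 = 1) :
    Q 0 0 * R 0 1 = F 0 1 * Q 1 1 := by
  have h01 := congrFun (congrFun h 0) 1
  simp only [Matrix.mul_apply, Fin.sum_univ_two, hR, hF, mul_one, one_mul] at h01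
  linear_combination h01

/-- A functional to the prime field taking the value one. -/
theorem exists_dual_eq_one {p : ℕ} [Fact p.Prime] [Algebra (ZMod p) k] {e : k} (he : e ≠ 0) :
    ∃ φ : k →ₗ[ZMod p] ZMod p, φ e = 1 := by
  obtain ⟨f, hf⟩ := not_forall.1 fun h => he ((Module.forall_dual_apply_eq_zero_iff (ZMod p) e).1 h)
  exact ⟨(f e)⁻¹ • f, by rw [LinearMap.smul_apply, smul_eq_mul, inv_mul_cancel₀ hf]⟩

variable {W : WeierstrassCurve ℤ} {p : ℕ} [Fact p.Prime] {hΔ : W.Δ ≠ 0} [Algebra (ZMod p) k]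

/-- The basis of the residual representation over `k` extended from the prime field. -/
def extBasis (f : Basis (Fin 2) (ZMod p) (EC.Rep.residualRep W p hΔ).V) :
    Basis (Fin 2) k (wRho W p hΔ k).V :=
  f.baseChange k

/-- The matrices in a basis extended from the prime field. -/
theorem wMat_extBasis_apply (f : Basis (Fin 2) (ZMod p) (EC.Rep.residualRep W p hΔ).V)
    (σ : Gal) (i j : Fin 2) :
    wMat (extBasis (k := k) f) σ i j =
      algebraMap (ZMod p) k (LinearMap.toMatrix f f ((EC.Rep.residualRep W p hΔ).ρ σ) i j) := by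
  refine Eq.trans (LinearMap.toMatrixAlgEquiv_apply (f.baseChange k)
    (((EC.Rep.residualRep W p hΔ).ρ σ).baseChange k) i j) ?_
  rw [Basis.baseChange_apply, LinearMap.baseChange_tmul, Basis.baseChange_repr_tmul,
    LinearMap.toMatrix_apply, Algebra.algebraMap_eq_smul_one]

end Fermat.Agent.RT.Lift59.Scalar

end
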